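import Fermat.Agent.ML.At2.N1.Cyc
import Fermat.Agent.ML.At2.N1.Deck
import Fermat.Agent.ML.Ihara.PullB
import Fermat.Agent.S48.ModL.HP.Trans
import Fermat.Agent.GAL.Sup.K2

/-!
# ML / AT-2 / [INV4-BRIDGE] : invariance under the deck involutions ⟹ invariance of the Kummer character

`N` odd, `w ∈ J₀(4N)[m]` with Kummer character `χ`.  If `δ₀^* δ₀_* w = 2 w` and `δ₁^* δ₁_* w = 2 w`
(`δ₀, δ₁ : X₀(4N) → X₀(2N)`, `τ`, `2τ`) then `χ` is invariant under conjugation by `Γ₀(2N)` and by `[[1,1/2],[0,1]]`.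
-/

set_option autoImplicit false
set_option linter.unusedSectionVars false
set_option linter.style.haveILetI false
set_option synthInstance.maxHeartbeats 400000

noncomputable section

open AlgebraicCurve ModularCurve CongruenceSubgroup ModularForm
open scoped MatrixGroups
open Matrix.SpecialLinearGroup (mapGL)

namespace Fermat.Agent.ML.At2

open Fermat.Agent.S24 Fermat.Agent.GAL Fermat.Agent.GAL.HeckeEquiv Fermat.Agent.GAL.HeckeInputs
  Fermat.Agent.RIB Fermat.Agent.S48.ModL.HP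
open Fermat.Agent.RED hiding Kb

/-! ### abstract: embeddings which agree on a quadratic subfield -/

/-- two embeddings of `F'` which agree on a subfield `φ F` with `φ (N z) = z * s z` differ by `1` or `s`. -/
theorem emb_dichotomy {F F' Ω : Type*} [Field F] [Field F'] [Field Ω] (φ : F →+* F') (Nm : F' → F)
    (s : F' →+* F') (hN : ∀ z, φ (Nm z) = z * s z) (e e' : F' →+* Ω)
    (h : ∀ x, e' (φ x) = e (φ x)) : (∀ z, e' z = e z) ∨ (∀ z, e' z = e (s z)) := by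
  have hprod : ∀ z, e' z * e' (s z) = e z * e (s z) := fun z => by
    rw [← map_mul, ← map_mul, ← hN, h]
  have hsum : ∀ z, e' z + e' (s z) = e z + e (s z) := fun z => by
    have h1 := hprod (1 + z)
    have h0 := hprod z
    simp only [map_add, map_one] at h1
    linear_combination h1 - h0
  have hor : ∀ z, e' z = e z ∨ e' z = e (s z) := fun z => by
    have : (e' z - e z) * (e' z - e (s z)) = 0 := by
      linear_combination e' z * hsum z - hprod z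
    rcases mul_eq_zero.1 this with h1 | h1
    · exact Or.inl (sub_eq_zero.1 h1)
    · exact Or.inr (sub_eq_zero.1 h1)
  by_contra hcon
  push Not at hcon
  obtain ⟨⟨a, ha⟩, ⟨b, hb⟩⟩ := hcon
  have ha' := (hor a).resolve_left ha
  have hb' := (hor b).resolve_right hb
  rcases hor (a + b) with h1 | h1
  · rw [map_add, map_add, hb'] at h1
    exact ha (add_right_cancel h1)
  · rw [map_add, map_add, map_add, ha'] at h1
    exact hb (add_left_cancel h1)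

/-! ### Kummer classes in the `Kum` language -/

section Kummer

variable {N m : ℕ} [NeZero N] [NeZero m]

theorem isKummer_iff_kum {χ : Gamma0 N →* ℂˣ} {x : JZero N} :
    IsKummer N m χ x ↔ ∃ (u : FN N) (h : Mer), Kum m x u ∧ ThetaMer N u = h ^ m ∧ HasChar N χ h := by
  constructor
  · rintro ⟨D, u, h, hu, hD, hθ, hχ, rfl⟩
    exact ⟨u, h, ⟨D, rfl, hu, fun P => (hD P).symm⟩, hθ, hχ⟩
  · rintro ⟨u, h, ⟨D, rfl, hu, hD⟩, hθ, hχ⟩
    exact ⟨D, u, h, hu, fun P => (hD P).symm, hθ, hχ, rfl⟩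

theorem isKummer_inv {χ : Gamma0 N →* ℂˣ} {x : JZero N} (h : IsKummer N m χ x) :
    IsKummer N m χ⁻¹ (-x) := by
  obtain ⟨D, u, f, hu, hD, huf, hf, rfl⟩ := h
  have hf0 : f ≠ 0 := by
    rintro rfl
    rw [zero_pow (NeZero.ne m)] at huf
    exact hu ((map_eq_zero (ThetaMer N)).mp huf)
  refine ⟨-D, u⁻¹, f⁻¹, inv_ne_zero hu, fun v => ?_, ?_, fun g => ?_, rfl⟩
  · rw [v.ord_inv, hD v, AddSubgroup.coe_neg, Finsupp.neg_apply]
    ring
  · rw [map_inv₀, huf, inv_pow]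
  · rw [map_inv₀, hf g, MonoidHom.inv_apply, Units.val_inv_eq_inv_val, map_inv₀, mul_inv]

/-- the Kummer character is determined by the class. -/
theorem isKummer_char_unique {χ χ' : Gamma0 N →* ℂˣ} {x : JZero N} (h : IsKummer N m χ x)
    (h' : IsKummer N m χ' x) : χ = χ' := by
  have h1 := h.mul (isKummer_inv h')
  rw [add_neg_cancel] at h1
  exact mul_inv_eq_one.1 h1.eq_one_of_zero

end Kummer

/-! ### transport of Kummer classes along an automorphism which is analytically `z ↦ g z` -/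

section Transport

variable {L m : ℕ} [NeZero L] [NeZero m]

/-- `g` normalises `Γ₀(L)`. -/
def Normalises (L : ℕ) (g : GL (Fin 2) ℝ) : Prop :=
  ∀ γ : Gamma0 L, ∃ γ' : Gamma0 L, g * mapGL ℝ (γ : SL(2, ℤ)) = mapGL ℝ (γ' : SL(2, ℤ)) * g

theorem conj_unique {g : GL (Fin 2) ℝ} {γ γ₁ γ₂ : Gamma0 L}
    (h₁ : g * mapGL ℝ (γ : SL(2, ℤ)) = mapGL ℝ (γ₁ : SL(2, ℤ)) * g)
    (h₂ : g * mapGL ℝ (γ : SL(2, ℤ)) = mapGL ℝ (γ₂ : SL(2, ℤ)) * g) : γ₁ = γ₂ := by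
  have h := mul_right_cancel (h₁.symm.trans h₂)
  exact Subtype.ext (Matrix.SpecialLinearGroup.mapGL_injective h)

/-- `γ ↦ g γ g⁻¹` -/
def conjN (g : GL (Fin 2) ℝ) (hn : Normalises L g) : Gamma0 L →* Gamma0 L where
  toFun γ := (hn γ).choose
  map_one' := by
    refine conj_unique (γ := 1) (hn 1).choose_spec ?_
    simp
  map_mul' γ δ := by
    refine conj_unique (γ := γ * δ) (hn (γ * δ)).choose_spec ?_
    have h1 := (hn γ).choose_spec
    have h2 := (hn δ).choose_spec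
    generalize (hn γ).choose = γ' at h1 ⊢
    generalize (hn δ).choose = δ' at h2 ⊢
    rw [Subgroup.coe_mul, Subgroup.coe_mul, map_mul, map_mul, ← mul_assoc, h1,
      mul_assoc, h2, mul_assoc]

theorem conjN_spec (g : GL (Fin 2) ℝ) (hn : Normalises L g) (γ : Gamma0 L) :
    g * mapGL ℝ (γ : SL(2, ℤ)) = mapGL ℝ (conjN g hn γ : SL(2, ℤ)) * g := (hn γ).choose_spec

theorem conjN_eq {g : GL (Fin 2) ℝ} (hn : Normalises L g) {γ γ' : Gamma0 L}
    (h : g * mapGL ℝ (γ : SL(2, ℤ)) = mapGL ℝ (γ' : SL(2, ℤ)) * g) : conjN g hn γ = γ' :=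
  conj_unique (conjN_spec g hn γ) h

/-- **transport.** -/
theorem isKummer_gPull_aut (a : FN L →ₐ[Kb] FN L) (g : GL (Fin 2) ℝ) (hg : 0 < g.det.val)
    (ha : ∀ u, ThetaMer L (a u) = merGL g hg (ThetaMer L u)) (hn : Normalises L g)
    {χ : Gamma0 L →* ℂˣ} {x : JZero L} (h : IsKummer L m χ x) :
    IsKummer L m (χ.comp (conjN g hn)) (gPull a x) := by
  obtain ⟨u, f, hk, hθ, hχ⟩ := isKummer_iff_kum.1 h
  refine isKummer_iff_kum.2 ⟨a u, merGL g hg f, kum_gPull a hk, by rw [ha, hθ, map_pow], ?_⟩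
  intro γ
  set d := conjN g hn γ⁻¹ with hd
  have e1 : actMer ((d : SL(2, ℤ)))⁻¹ f = algebraMap ℂ Mer (((χ d)⁻¹ : ℂˣ) : ℂ) * f := by
    have := hχ d⁻¹
    rwa [map_inv] at this
  have hdx : g * mapGL ℝ (γ : SL(2, ℤ))⁻¹ = mapGL ℝ (d : SL(2, ℤ)) * g := conjN_spec g hn γ⁻¹
  rw [actMer_eq_merGL, merGL_merGL, merGL_congr hdx,
    ← merGL_merGL _ _ hg (det_mapGL_pos (d : SL(2, ℤ))), merGL_mapGL, e1,
    map_mul, AlgHom.commutes, hd, map_inv, map_inv, inv_inv, MonoidHom.comp_apply]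

/-- **invariance of the character** of a class fixed by the automorphism. -/
theorem char_invariant (a : FN L →ₐ[Kb] FN L) (g : GL (Fin 2) ℝ) (hg : 0 < g.det.val)
    (ha : ∀ u, ThetaMer L (a u) = merGL g hg (ThetaMer L u)) (hn : Normalises L g)
    {χ : Gamma0 L →* ℂˣ} {x : JZero L} (h : IsKummer L m χ x) (hx : gPull a x = x)
    {γ γ' : Gamma0 L} (hγ : g * mapGL ℝ (γ : SL(2, ℤ)) = mapGL ℝ (γ' : SL(2, ℤ)) * g) :
    χ γ' = χ γ := by
  have h1 := isKummer_gPull_aut a g hg ha hn h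
  rw [hx] at h1
  have h2 := isKummer_char_unique h h1
  rw [← conjN_eq hn hγ]
  exact (DFunLike.congr_fun h2 γ).symm

end Transport

/-! ### the two normalisers of `Γ₀(4N)` -/

section Norm

variable (N : ℕ) [NeZero N]

/-- `Γ₀(2N)` normalises `Γ₀(4N)`. -/
theorem normalises_gamma0 (g : Gamma0 (N * 2)) :
    Normalises (N * 2 * 2) (mapGL ℝ (g : SL(2, ℤ))) := by
  intro γ
  obtain ⟨c₀, hc₀⟩ := (S20.mem_Gamma0_iff_dvd (N * 2) _).mp g.2
  obtain ⟨z₀, hz₀⟩ := (S20.mem_Gamma0_iff_dvd (N * 2 * 2) _).mp γ.2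
  have hdet := Matrix.det_fin_two ((γ : SL(2, ℤ)) : Matrix (Fin 2) (Fin 2) ℤ)
  rw [(γ : SL(2, ℤ)).2] at hdet
  -- the diagonal entries of `γ` are odd
  have hodd : Odd ((γ : SL(2, ℤ)) 0 0 * (γ : SL(2, ℤ)) 1 1) := by
    refine ⟨(γ : SL(2, ℤ)) 0 1 * (N * 2 * z₀), ?_⟩
    rw [hz₀] at hdet
    push_cast at hdet
    linear_combination -hdet
  obtain ⟨h00, h11⟩ := Int.odd_mul.1 hodd
  obtain ⟨k, hk⟩ := h00.sub_odd h11
  refine ⟨⟨(g : SL(2, ℤ)) * γ * (g : SL(2, ℤ))⁻¹, ?_⟩, ?_⟩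
  · rw [S20.mem_Gamma0_iff_dvd]
    refine ⟨c₀ * (g : SL(2, ℤ)) 1 1 * k + (g : SL(2, ℤ)) 1 1 ^ 2 * z₀
      - N * c₀ ^ 2 * (γ : SL(2, ℤ)) 0 1, ?_⟩
    simp only [Matrix.SpecialLinearGroup.coe_mul, Matrix.SpecialLinearGroup.coe_inv,
      Matrix.adjugate_fin_two, Matrix.mul_apply, Fin.sum_univ_two, Matrix.of_apply,
      Matrix.cons_val', Matrix.cons_val_zero, Matrix.cons_val_one, Matrix.cons_val_fin_one]
    rw [hc₀, hz₀]
    push_cast
    linear_combination (N : ℤ) * 2 * c₀ * (g : SL(2, ℤ)) 1 1 * hk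
  · rw [← map_mul, ← map_mul]
    congr 1
    simp

/-- `[[1,1/2],[0,1]]` normalises `Γ₀(4N)`. -/
theorem normalises_trMat : Normalises (N * 2 * 2) (trMat (1 / 2)) := by
  intro γ
  obtain ⟨z₀, hz₀⟩ := (S20.mem_Gamma0_iff_dvd (N * 2 * 2) _).mp γ.2
  have hdet := Matrix.det_fin_two ((γ : SL(2, ℤ)) : Matrix (Fin 2) (Fin 2) ℤ)
  rw [(γ : SL(2, ℤ)).2] at hdet
  have hodd : Odd ((γ : SL(2, ℤ)) 0 0 * (γ : SL(2, ℤ)) 1 1) := by
    refine ⟨(γ : SL(2, ℤ)) 0 1 * (N * 2 * z₀), ?_⟩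
    rw [hz₀] at hdet
    push_cast at hdet
    linear_combination -hdet
  obtain ⟨h00, h11⟩ := Int.odd_mul.1 hodd
  obtain ⟨k, hk⟩ := h11.sub_odd h00
  let γ' : SL(2, ℤ) := ⟨!![(γ : SL(2, ℤ)) 0 0 + (N : ℤ) * 2 * z₀,
    (γ : SL(2, ℤ)) 0 1 + k - (N : ℤ) * z₀; (N : ℤ) * 2 * 2 * z₀,
    (γ : SL(2, ℤ)) 1 1 - (N : ℤ) * 2 * z₀], by
      rw [Matrix.det_fin_two_of]
      rw [hz₀] at hdet
      push_cast at hdet
      linear_combination -hdet + (N : ℤ) * 2 * z₀ * hk⟩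
  refine ⟨⟨γ', (S20.mem_Gamma0_iff_dvd (N * 2 * 2) _).mpr ⟨z₀, by simp [γ']⟩⟩, ?_⟩
  apply Units.ext
  rw [Units.val_mul, Units.val_mul, trMat, val_upperTriangularGL]
  have hz' : (((γ : SL(2, ℤ)) 1 0 : ℤ) : ℝ) = (N : ℝ) * 2 * 2 * z₀ := by
    rw [hz₀]; push_cast; ring
  have hk' : (((γ : SL(2, ℤ)) 1 1 : ℤ) : ℝ) - (((γ : SL(2, ℤ)) 0 0 : ℤ) : ℝ) = (k : ℝ) + k := by
    exact_mod_cast hk
  have e : ∀ (δ : SL(2, ℤ)) (i j : Fin 2),
      ((mapGL ℝ δ : GL (Fin 2) ℝ) : Matrix (Fin 2) (Fin 2) ℝ) i j = ((δ i j : ℤ) : ℝ) :=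
    fun _ _ _ => rfl
  have e00 : γ' 0 0 = (γ : SL(2, ℤ)) 0 0 + (N : ℤ) * 2 * z₀ := rfl
  have e01 : γ' 0 1 = (γ : SL(2, ℤ)) 0 1 + k - (N : ℤ) * z₀ := rfl
  have e10 : γ' 1 0 = (N : ℤ) * 2 * 2 * z₀ := rfl
  have e11 : γ' 1 1 = (γ : SL(2, ℤ)) 1 1 - (N : ℤ) * 2 * z₀ := rfl
  ext i j
  fin_cases i <;> fin_cases j <;>
    simp only [Matrix.mul_apply, Fin.sum_univ_two, e, e00, e01, e10, e11, hz', Matrix.of_apply,
      Matrix.cons_val', Matrix.cons_val_zero, Matrix.cons_val_one, Matrix.cons_val_fin_one,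
      Fin.zero_eta, Fin.mk_one, Fin.isValue] <;> push_cast <;> linarith

end Norm

/-! ### the bridge -/

section Main

variable (N : ℕ) [NeZero N]

open scoped Fermat.Agent.ML.At2.Gam

theorem aPull_eq_self_of_pull_push {m : ℕ} (hm : m ≠ 0) (φ : FN (N * 2) →ₐ[Kb] FN (N * 2 * 2))
    (s : FN (N * 2 * 2) ≃ₐ[FN N] FN (N * 2 * 2))
    (hs : ∀ z, φ (TorsES.normAlong φ z) = z * s z) {w : JZero (N * 2 * 2)} (hw : m • w = 0)
    (h : gPull φ (gPush φ w) = 2 • w) : aPull s w = w := by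
  obtain ⟨z, hz⟩ := exists_kum hw
  have h1 := kum_gPull φ (kum_gPush φ hz)
  rw [hs z] at h1
  have h2 := (hz.add (kum_aPull s hz)).eq hm h1
  rw [h, two_nsmul] at h2
  exact add_left_cancel h2

/-- an analytic substitution `z ↦ g z` which fixes the quadratic subfield `φ F_{2N}` is `1` or the deck involution. -/
theorem exists_aut_of_agree (φ : FN (N * 2) →ₐ[Kb] FN (N * 2 * 2))
    (s : FN (N * 2 * 2) ≃ₐ[FN N] FN (N * 2 * 2))
    (hs : ∀ z, φ (TorsES.normAlong φ z) = z * s z) (g : GL (Fin 2) ℝ) (hg : 0 < g.det.val)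
    (hagree : ∀ x, merGL g hg (ThetaMer (N * 2 * 2) (φ x)) = ThetaMer (N * 2 * 2) (φ x)) :
    ∃ a : FN (N * 2 * 2) ≃ₐ[FN N] FN (N * 2 * 2), (a = 1 ∨ a = s) ∧
      ∀ u, ThetaMer (N * 2 * 2) (a u) = merGL g hg (ThetaMer (N * 2 * 2) u) := by
  rcases emb_dichotomy (φ : FN (N * 2) →+* FN (N * 2 * 2)) (TorsES.normAlong φ)
    (s : FN (N * 2 * 2) →+* FN (N * 2 * 2)) hs (ThetaMer (N * 2 * 2))
    ((merGL g hg).toRingHom.comp (ThetaMer (N * 2 * 2))) hagree with h | h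
  · exact ⟨1, Or.inl rfl, fun u => (h u).symm⟩
  · exact ⟨s, Or.inr rfl, fun u => (h u).symm⟩

/-- the general invariance statement. -/
theorem char_invariant_of_agree {m : ℕ} [NeZero m] (φ : FN (N * 2) →ₐ[Kb] FN (N * 2 * 2))
    (s : FN (N * 2 * 2) ≃ₐ[FN N] FN (N * 2 * 2))
    (hs : ∀ z, φ (TorsES.normAlong φ z) = z * s z) (g : GL (Fin 2) ℝ) (hg : 0 < g.det.val)
    (hagree : ∀ x, merGL g hg (ThetaMer (N * 2 * 2) (φ x)) = ThetaMer (N * 2 * 2) (φ x))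
    (hn : Normalises (N * 2 * 2) g) {χ : Gamma0 (N * 2 * 2) →* ℂˣ} {w : JZero (N * 2 * 2)}
    (hχ : IsKummer (N * 2 * 2) m χ w) (h : gPull φ (gPush φ w) = 2 • w)
    {γ γ' : Gamma0 (N * 2 * 2)}
    (hγ : g * mapGL ℝ (γ : SL(2, ℤ)) = mapGL ℝ (γ' : SL(2, ℤ)) * g) : χ γ' = χ γ := by
  have hm : m ≠ 0 := NeZero.ne m
  have hw : m • w = 0 := by
    obtain ⟨u, f, hk, -, -⟩ := isKummer_iff_kum.1 hχ
    exact hk.nsmul_eq_zero
  obtain ⟨a, ha, hθ⟩ := exists_aut_of_agree N φ s hs g hg hagree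
  have hfix : aPull a w = w := by
    rcases ha with rfl | rfl
    · exact aPull_one hm hw
    · exact aPull_eq_self_of_pull_push N hm φ _ hs hw h
  exact char_invariant (autK Kb a) g hg hθ hn hχ hfix hγ

theorem agree_alp (g : Gamma0 (N * 2)) (x : FN (N * 2)) :
    merGL (mapGL ℝ (g : SL(2, ℤ))) (det_mapGL_pos _) (ThetaMer (N * 2 * 2) (alp N x)) =
      ThetaMer (N * 2 * 2) (alp N x) := by
  rw [alp, ThetaMer_alpha, merGL_mapGL]
  exact HeckeEquiv.actMer_ThetaMer (N * 2) (inv_mem g.2) x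

/-- `[[1,1],[0,1]]` -/
def T11 : SL(2, ℤ) := ⟨!![1, 1; 0, 1], by rw [Matrix.det_fin_two_of]; norm_num⟩

theorem T11_mem (L : ℕ) : T11 ∈ Gamma0 L := by
  rw [S20.mem_Gamma0_iff_dvd]
  exact ⟨0, by simp [T11]⟩

theorem diag_mul_trMat :
    heckeDiagMatrix 2 * trMat (1 / 2) = mapGL ℝ T11 * heckeDiagMatrix 2 := by
  apply Units.ext
  rw [Units.val_mul, Units.val_mul, trMat, val_upperTriangularGL,
    val_heckeDiagMatrix (by norm_num : (2 : ℕ) ≠ 0)]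
  have e : ∀ (δ : SL(2, ℤ)) (i j : Fin 2),
      ((mapGL ℝ δ : GL (Fin 2) ℝ) : Matrix (Fin 2) (Fin 2) ℝ) i j = ((δ i j : ℤ) : ℝ) :=
    fun _ _ _ => rfl
  have e00 : T11 0 0 = 1 := rfl
  have e01 : T11 0 1 = 1 := rfl
  have e10 : T11 1 0 = 0 := rfl
  have e11 : T11 1 1 = 1 := rfl
  ext i j
  fin_cases i <;> fin_cases j <;>
    simp only [Matrix.mul_apply, Fin.sum_univ_two, e, e00, e01, e10, e11, Matrix.of_apply,
      Matrix.cons_val', Matrix.cons_val_zero, Matrix.cons_val_one, Matrix.cons_val_fin_one,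
      Fin.zero_eta, Fin.mk_one, Fin.isValue] <;> norm_num

theorem agree_bet (x : FN (N * 2)) :
    merGL (trMat (1 / 2)) (det_trMat_pos _) (ThetaMer (N * 2 * 2) (bet N x)) =
      ThetaMer (N * 2 * 2) (bet N x) := by
  rw [bet, ThetaMer_beta, merGL_merGL, merGL_congr diag_mul_trMat,
    ← merGL_merGL _ _ (det_heckeDiagMatrix_pos 2) (det_mapGL_pos T11), merGL_mapGL,
    HeckeEquiv.actMer_ThetaMer (N * 2) (inv_mem (T11_mem (N * 2))) x]

/-- **[INV4-BRIDGE]** -/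
theorem inv4_bridge (hN : ¬ 2 ∣ N) {m : ℕ} [NeZero m] {χ : Gamma0 (N * 2 * 2) →* ℂˣ}
    {w : JZero (N * 2 * 2)} (hχ : IsKummer (N * 2 * 2) m χ w)
    (hA : pullA (N * 2) 2 (SS.pushA (N * 2) 2 w) = 2 • w)
    (hB : pullB (N * 2) 2 (SS.pushB (N * 2) 2 w) = 2 • w) :
    (∀ γ γ' : Gamma0 (N * 2 * 2),
      trMat (1 / 2) * mapGL ℝ (γ : SL(2, ℤ)) = mapGL ℝ (γ' : SL(2, ℤ)) * trMat (1 / 2) →
        χ γ' = χ γ) ∧
    (∀ (g : Gamma0 (N * 2)) (γ γ' : Gamma0 (N * 2 * 2)),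
      (g : SL(2, ℤ)) * (γ : SL(2, ℤ)) = (γ' : SL(2, ℤ)) * (g : SL(2, ℤ)) → χ γ' = χ γ) := by
  obtain ⟨s, t, -, hs, ht, -, -, -, -⟩ := exists_deck N hN
  refine ⟨fun γ γ' hγ => ?_, fun g γ γ' hγ => ?_⟩
  · exact char_invariant_of_agree N (bet N) t ht _ (det_trMat_pos _) (agree_bet N)
      (normalises_trMat N) hχ hB hγ
  · refine char_invariant_of_agree N (alp N) s hs _ (det_mapGL_pos _) (agree_alp N g)
      (normalises_gamma0 N g) hχ hA ?_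
    rw [← map_mul, ← map_mul, hγ]

end Main

end Fermat.Agent.ML.At2
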