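import Fermat.Agent.ML.Ihara.J0
import Fermat.Agent.SS.Top35.Push

/-!
# ML / AT-2 / [AT2-INV4-BRIDGE], soft route

`w ∈ J₀(N q)[m]` with Kummer character `c : Γ₀(N q) → ℤ/m`.

* If `α^* α_* w = d w` with `d` prime to `m` then `w = α^* y` (`y := d⁻¹ α_* w`), so `c` is the
  RESTRICTION of the good character `c₀` of `y` on `Γ₀(N)`; in particular `c` is invariant under
  conjugation by `Γ₀(N)`  (**(Hg)**).
* If `β^* β_* w = d w` then `w = β^* y`, so `c γ = c₀ (δ γ δ⁻¹)`, `δ = diag(q,1)`; in particular `c`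
  is invariant under conjugation by `δ⁻¹ Γ₀(N) δ ∋ t = [[1,1/q],[0,1]]`  (**(Ht)**).

No deck transformation, no analysis: only `exists_goodHom_of_torsion`, `isKummer_pullA/B` and the
uniqueness of the Kummer character of a class.
-/

set_option autoImplicit false
set_option linter.unusedSectionVars false

open AlgebraicCurve ModularCurve CongruenceSubgroup ModularForm
open scoped MatrixGroups
open Matrix.SpecialLinearGroup (mapGL)

namespace Fermat.Agent.ML.At2

open Fermat.Agent.GAL Fermat.Agent.GAL.PC Fermat.Agent.GAL.HeckeEquiv Fermat.Agent.GAL.HeckeInputs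
  Fermat.Agent.S24 Fermat.Agent.RIB

noncomputable section

variable {N m : ℕ} [NeZero N] [NeZero m]

/-- the Kummer (additive) character of a class is unique. -/
theorem isKummer_hom_unique {c c' : Additive (Gamma0 N) →+ ZMod m} {x : JZero N}
    (h : IsKummer N m (chiOf c) x) (h' : IsKummer N m (chiOf c') x) : c = c' := by
  have h1 := h.mul (isKummer_neg h')
  rw [← chiOf_add, add_neg_cancel] at h1
  have h2 := h1.eq_one_of_zero
  rw [← chiOf_zero (N := N) (m := m)] at h2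
  have h3 := chiOf_injective h2
  rwa [← sub_eq_add_neg, sub_eq_zero] at h3

variable (q : ℕ) [NeZero q]

/-- `d`-divisibility trick: a class with `π^* π_* w = d w`, `d` prime to `m`, `m w = 0`, is a
pull-back of an `m`-torsion class. -/
theorem exists_pull_eq_of_pull_push {A B : Type*} [AddCommGroup A] [AddCommGroup B]
    (pull : B →+ A) (push : A →+ B) {d : ℕ} (hdm : Nat.Coprime d m) {w : A} (hw : m • w = 0)
    (h : pull (push w) = d • w) : ∃ y : B, m • y = 0 ∧ pull y = w := by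
  have hb : (d : ℤ) * Int.gcdA d m + (m : ℤ) * Int.gcdB d m = 1 := by
    have := Int.gcd_eq_gcd_ab (d : ℤ) (m : ℤ)
    rw [Int.gcd_natCast_natCast, hdm] at this
    simpa using this.symm
  refine ⟨Int.gcdA d m • push w, ?_, ?_⟩
  · rw [smul_comm, ← map_nsmul, hw, map_zero, smul_zero]
  · rw [map_zsmul, h]
    have hw' : (m : ℤ) • w = 0 := by rw [natCast_zsmul, hw]
    calc Int.gcdA d m • d • w = ((d : ℤ) * Int.gcdA d m) • w := by
          rw [← natCast_zsmul, smul_smul, mul_comm]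
      _ = (1 - (m : ℤ) * Int.gcdB d m) • w := by rw [← hb]; ring_nf
      _ = w := by rw [sub_smul, one_smul, mul_comm, mul_smul, hw', smul_zero, sub_zero]

/-- the inclusion `Γ₀(N q) → Γ₀(N)`. -/
def inclG : Gamma0 (N * q) →* Gamma0 N :=
  Subgroup.inclusion (S41.Gamma0_mul_le N q)

theorem coe_inclG (γ : Gamma0 (N * q)) : ((inclG (N := N) q γ : Gamma0 N) : SL(2, ℤ)) = γ := rfl

/-- uniqueness of `δ γ δ⁻¹`. -/
theorem conj_diag_unique {γ : SL(2, ℤ)} {γ' γ'' : Gamma0 N}
    (h' : heckeDiagMatrix q * mapGL ℝ γ = mapGL ℝ (γ' : SL(2, ℤ)) * heckeDiagMatrix q)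
    (h'' : heckeDiagMatrix q * mapGL ℝ γ = mapGL ℝ (γ'' : SL(2, ℤ)) * heckeDiagMatrix q) :
    γ' = γ'' := by
  have h1 : mapGL ℝ (γ' : SL(2, ℤ)) = mapGL ℝ (γ'' : SL(2, ℤ)) :=
    mul_right_cancel (h'.symm.trans h'')
  exact Subtype.ext (Matrix.SpecialLinearGroup.mapGL_injective h1)

/-- the homomorphism `γ ↦ δ γ δ⁻¹ : Γ₀(N q) → Γ₀(N)`, `δ = diag(q,1)`. -/
def conjG : Gamma0 (N * q) →* Gamma0 N :=
  MonoidHom.mk' (fun γ => (exists_conj_diag q γ).choose) (by
    intro a b
    have ha := (exists_conj_diag (N := N) q a).choose_spec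
    have hb := (exists_conj_diag (N := N) q b).choose_spec
    have hab := (exists_conj_diag (N := N) q (a * b)).choose_spec
    refine conj_diag_unique q hab ?_
    generalize (exists_conj_diag (N := N) q a).choose = a' at ha
    generalize (exists_conj_diag (N := N) q b).choose = b' at hb
    rw [Subgroup.coe_mul, Subgroup.coe_mul, map_mul, map_mul, ← mul_assoc, ha, mul_assoc, hb,
      mul_assoc])

theorem conjG_spec (γ : Gamma0 (N * q)) :
    heckeDiagMatrix q * mapGL ℝ (γ : SL(2, ℤ))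
      = mapGL ℝ ((conjG (N := N) q γ : Gamma0 N) : SL(2, ℤ)) * heckeDiagMatrix q :=
  (exists_conj_diag q γ).choose_spec

theorem chiOf_comp {N' : ℕ} (c₀ : Additive (Gamma0 N) →+ ZMod m) (f : Gamma0 N' →* Gamma0 N) :
    chiOf (c₀.comp (MonoidHom.toAdditive f)) = (chiOf c₀).comp f := by
  ext γ
  rfl

/-- **[BRIDGE-A]** `α^* α_* w = d w` : the Kummer character of `w` is the restriction of a good
character of `Γ₀(N)`. -/
theorem exists_ext_of_pullA_pushA {d : ℕ} (hdm : Nat.Coprime d m)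
    {c : Additive (Gamma0 (N * q)) →+ ZMod m} {w : JZero (N * q)}
    (hK : IsKummer (N * q) m (chiOf c) w) (hA : pullA N q (SS.pushA N q w) = d • w) :
    ∃ (c₀ : GoodHom N m) (y : JZero N),
      IsKummer N m (chiOf (c₀ : Additive (Gamma0 N) →+ ZMod m)) y ∧ pullA N q y = w ∧
      ∀ (γ : Gamma0 (N * q)) (γ' : Gamma0 N), (γ : SL(2, ℤ)) = γ' →
        c (Additive.ofMul γ) = (c₀ : Additive (Gamma0 N) →+ ZMod m) (Additive.ofMul γ') := by
  obtain ⟨y, hy, hyw⟩ := exists_pull_eq_of_pull_push (pullA N q) (SS.pushA N q) hdm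
    (isKummer_torsion hK) hA
  obtain ⟨c₀, hc₀⟩ := exists_goodHom_of_torsion N m y hy
  refine ⟨c₀, y, hc₀, hyw, ?_⟩
  have h1 : IsKummer (N * q) m
      (chiOf ((c₀ : Additive (Gamma0 N) →+ ZMod m).comp (MonoidHom.toAdditive (inclG q)))) w := by
    rw [← hyw, chiOf_comp]
    refine isKummer_pullA q hc₀ _ fun γ γ' hγ => ?_
    have : inclG q γ = γ' := Subtype.ext hγ
    rw [MonoidHom.comp_apply, this]
  have h2 := isKummer_hom_unique hK h1
  intro γ γ' hγ
  have : inclG q γ = γ' := Subtype.ext hγ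
  rw [h2, ← this]
  rfl

/-- **[BRIDGE-B]** `β^* β_* w = d w` : the Kummer character of `w` is `γ ↦ c₀ (δ γ δ⁻¹)` for a good
character `c₀` of `Γ₀(N)`. -/
theorem exists_ext_of_pullB_pushB {d : ℕ} (hdm : Nat.Coprime d m)
    {c : Additive (Gamma0 (N * q)) →+ ZMod m} {w : JZero (N * q)}
    (hK : IsKummer (N * q) m (chiOf c) w) (hB : pullB N q (SS.pushB N q w) = d • w) :
    ∃ (c₀ : GoodHom N m) (y : JZero N),
      IsKummer N m (chiOf (c₀ : Additive (Gamma0 N) →+ ZMod m)) y ∧ pullB N q y = w ∧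
      ∀ (γ : Gamma0 (N * q)) (γ' : Gamma0 N),
        heckeDiagMatrix q * mapGL ℝ (γ : SL(2, ℤ)) = mapGL ℝ (γ' : SL(2, ℤ)) * heckeDiagMatrix q →
        c (Additive.ofMul γ) = (c₀ : Additive (Gamma0 N) →+ ZMod m) (Additive.ofMul γ') := by
  obtain ⟨y, hy, hyw⟩ := exists_pull_eq_of_pull_push (pullB N q) (SS.pushB N q) hdm
    (isKummer_torsion hK) hB
  obtain ⟨c₀, hc₀⟩ := exists_goodHom_of_torsion N m y hy
  refine ⟨c₀, y, hc₀, hyw, ?_⟩
  have h1 : IsKummer (N * q) m
      (chiOf ((c₀ : Additive (Gamma0 N) →+ ZMod m).comp (MonoidHom.toAdditive (conjG q)))) w := by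
    rw [← hyw, chiOf_comp]
    refine isKummer_pullB q hc₀ _ fun γ γ' hγ => ?_
    have : conjG q γ = γ' := conj_diag_unique q (conjG_spec q γ) hγ
    rw [MonoidHom.comp_apply, this]
  have h2 := isKummer_hom_unique hK h1
  intro γ γ' hγ
  have : conjG q γ = γ' := conj_diag_unique q (conjG_spec q γ) hγ
  rw [h2, ← this]
  rfl

end

end Fermat.Agent.ML.At2
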