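import Fermat.Agent.S41.IharaH
import Fermat.Agent.S41.EP.Bridge

/-!
# ML / AT-2 / (E2) [CAR3], [CAR2], [INV4] : group theory in `GL₂(ℚ)`

`Γ₁ = Γ₀(N q²)`, `P` a potential for `Γ₁`.  `stab Γ₁ P` is the subgroup of the normaliser of `Γ₁` in
`GL₂(ℚ)` of the `h` such that `P ∘ h - P` is `Γ₁`-invariant (`h` fixes the class of `P`).
For `q ∈ {2, 3}`: `t = [[1, 1/q], [0, 1]]` and the Atkin-Lehner matrix `w` normalise `Γ₁`, and
`δ⁻¹ Γ₀(N) δ ≤ ⟨Γ₁, t, w⟩`, `δ⁻¹ Γ₀(N q) δ ≤ ⟨Γ₁, t⟩`, `δ = diag(q, 1)`.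
-/

set_option autoImplicit false
set_option linter.unusedSectionVars false

open Matrix Matrix.SpecialLinearGroup CongruenceSubgroup OnePoint
open scoped MatrixGroups

namespace Fermat.Agent.ML.At2

open Fermat.Agent.S41 Fermat.Agent.S41.Soft

noncomputable section

variable {A : Type*} [AddCommGroup A]

/-! ### normaliser and stabiliser -/

/-- one-sided normaliser condition -/
def Nrm1 (Γ : Subgroup SL(2, ℤ)) (h : GL (Fin 2) ℚ) : Prop :=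
  ∀ γ ∈ Γ, ∃ γ' ∈ Γ, h * mapGL ℚ γ = mapGL ℚ γ' * h

theorem Nrm1.mul {Γ : Subgroup SL(2, ℤ)} {h h' : GL (Fin 2) ℚ} (H : Nrm1 Γ h) (H' : Nrm1 Γ h') :
    Nrm1 Γ (h * h') := by
  intro γ hγ
  obtain ⟨γ₁, h₁, e₁⟩ := H' γ hγ
  obtain ⟨γ₂, h₂, e₂⟩ := H γ₁ h₁
  exact ⟨γ₂, h₂, by rw [mul_assoc, e₁, ← mul_assoc, e₂, mul_assoc]⟩

theorem nrm1_one (Γ : Subgroup SL(2, ℤ)) : Nrm1 Γ 1 :=
  fun γ hγ => ⟨γ, hγ, by rw [one_mul, mul_one]⟩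

theorem nrm1_mapGL {Γ : Subgroup SL(2, ℤ)} {g : SL(2, ℤ)} (hg : g ∈ Γ) : Nrm1 Γ (mapGL ℚ g) :=
  fun γ hγ => ⟨g * γ * g⁻¹, Γ.mul_mem (Γ.mul_mem hg hγ) (Γ.inv_mem hg), by
    rw [← map_mul, ← map_mul, inv_mul_cancel_right]⟩

/-- the normaliser of `Γ` in `GL₂(ℚ)` -/
def nrmGrp (Γ : Subgroup SL(2, ℤ)) : Subgroup (GL (Fin 2) ℚ) where
  carrier := {h | Nrm1 Γ h ∧ Nrm1 Γ h⁻¹}
  mul_mem' := fun {_ _} ha hb => ⟨ha.1.mul hb.1, by rw [_root_.mul_inv_rev]; exact hb.2.mul ha.2⟩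
  one_mem' := ⟨nrm1_one Γ, by rw [inv_one]; exact nrm1_one Γ⟩
  inv_mem' := fun {_} ha => ⟨ha.2, by rw [inv_inv]; exact ha.1⟩

theorem mapGL_mem_nrmGrp {Γ : Subgroup SL(2, ℤ)} {g : SL(2, ℤ)} (hg : g ∈ Γ) :
    mapGL ℚ g ∈ nrmGrp Γ :=
  ⟨nrm1_mapGL hg, by rw [← map_inv]; exact nrm1_mapGL (Γ.inv_mem hg)⟩

theorem isInv_comp_nrm {Γ : Subgroup SL(2, ℤ)} {E : OnePoint ℚ → A} (hE : IsInv Γ E)
    {h : GL (Fin 2) ℚ} (hh : Nrm1 Γ h) : IsInv Γ (fun s => E (h • s)) := by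
  intro γ hγ s
  obtain ⟨γ', h', e⟩ := hh γ hγ
  show E (h • mapGL ℚ γ • s) = E (h • s)
  rw [← mul_smul, e, mul_smul, hE γ' h']

theorem isPot_comp_nrm {Γ : Subgroup SL(2, ℤ)} {E : OnePoint ℚ → A} (hE : IsPot Γ E)
    {h : GL (Fin 2) ℚ} (hh : Nrm1 Γ h) : IsPot Γ (fun s => E (h • s)) := by
  intro γ hγ
  obtain ⟨γ', h', e⟩ := hh γ hγ
  obtain ⟨c, hc⟩ := hE γ' h'
  refine ⟨c, fun s => ?_⟩
  show E (h • mapGL ℚ γ • s) = E (h • s) + c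
  rw [← mul_smul, e, mul_smul, hc]

/-- the elements of the normaliser of `Γ` fixing the class of the potential `P` -/
def stab (Γ : Subgroup SL(2, ℤ)) (P : OnePoint ℚ → A) : Subgroup (GL (Fin 2) ℚ) where
  carrier := {h | h ∈ nrmGrp Γ ∧ IsInv Γ (fun s => P (h • s) - P s)}
  mul_mem' := by
    rintro a b ⟨ha, ha'⟩ ⟨hb, hb'⟩
    refine ⟨(nrmGrp Γ).mul_mem ha hb, fun γ hγ s => ?_⟩
    have h1 := isInv_comp_nrm ha' hb.1 γ hγ s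
    have h2 := hb' γ hγ s
    simp only [mul_smul] at h1 h2 ⊢
    have e : ∀ u : OnePoint ℚ, P (a • b • u) - P u = (P (a • b • u) - P (b • u))
        + (P (b • u) - P u) := fun u => by abel
    rw [e, e s, h1, h2]
  one_mem' := ⟨(nrmGrp Γ).one_mem, fun γ _ s => by simp⟩
  inv_mem' := by
    rintro a ⟨ha, ha'⟩
    refine ⟨(nrmGrp Γ).inv_mem ha, fun γ hγ s => ?_⟩
    have h1 := isInv_comp_nrm ha' ha.2 γ hγ s
    simp only [smul_inv_smul] at h1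
    have e : ∀ u : OnePoint ℚ, P (a⁻¹ • u) - P u = -(P u - P (a⁻¹ • u)) := fun u => by abel
    show P (a⁻¹ • mapGL ℚ γ • s) - P (mapGL ℚ γ • s) = P (a⁻¹ • s) - P s
    rw [e, e s, h1]

theorem mem_stab {Γ : Subgroup SL(2, ℤ)} {P : OnePoint ℚ → A} {h : GL (Fin 2) ℚ} :
    h ∈ stab Γ P ↔ h ∈ nrmGrp Γ ∧ IsInv Γ (fun s => P (h • s) - P s) := Iff.rfl

theorem mapGL_mem_stab {Γ : Subgroup SL(2, ℤ)} {P : OnePoint ℚ → A} (hP : IsPot Γ P)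
    {g : SL(2, ℤ)} (hg : g ∈ Γ) : mapGL ℚ g ∈ stab Γ P := by
  refine ⟨mapGL_mem_nrmGrp hg, fun γ _ s => ?_⟩
  obtain ⟨c, hc⟩ := hP g hg
  simp only [hc, add_sub_cancel_left]

/-! ### integral matrices -/

theorem mul_mapGL_eq_of_int {h : GL (Fin 2) ℚ} {c : ℚ} {W : Matrix (Fin 2) (Fin 2) ℤ}
    (hW : (h : Matrix (Fin 2) (Fin 2) ℚ) = c • W.map (Int.cast : ℤ → ℚ)) {γ γ' : SL(2, ℤ)}
    (e : W * (γ : Matrix (Fin 2) (Fin 2) ℤ) = (γ' : Matrix (Fin 2) (Fin 2) ℤ) * W) :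
    h * mapGL ℚ γ = mapGL ℚ γ' * h := by
  apply Units.ext
  rw [Units.val_mul, Units.val_mul, hW, coe_mapGL_rat, coe_mapGL_rat, Matrix.smul_mul,
    Matrix.mul_smul, ← Matrix.map_mul_intCast, ← Matrix.map_mul_intCast, e]

theorem det_SL2 (g : SL(2, ℤ)) : g 0 0 * g 1 1 - g 0 1 * g 1 0 = 1 := by
  have h := g.det_coe
  rwa [Matrix.det_fin_two] at h

theorem SL2_eta (g : SL(2, ℤ)) :
    (g : Matrix (Fin 2) (Fin 2) ℤ) = !![g 0 0, g 0 1; g 1 0, g 1 1] := by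
  ext i j
  fin_cases i <;> fin_cases j <;> rfl

theorem mat2_ext {R : Type*} {a b c d a' b' c' d' : R} (h1 : a = a') (h2 : b = b') (h3 : c = c')
    (h4 : d = d') : (!![a, b; c, d] : Matrix (Fin 2) (Fin 2) R) = !![a', b'; c', d'] := by
  subst h1 h2 h3 h4; rfl

/-- `(ℤ/q)^× = {± 1}` -/
def Sq1 (q : ℕ) : Prop := ∀ a d : ℤ, (q : ℤ) ∣ a * d - 1 → (q : ℤ) ∣ d - a

theorem sq1_two : Sq1 2 := by
  intro a d h
  rw [← ZMod.intCast_zmod_eq_zero_iff_dvd] at h ⊢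
  push_cast at h ⊢
  revert h
  generalize (a : ZMod 2) = a'
  generalize (d : ZMod 2) = d'
  revert a' d'
  decide

theorem sq1_three : Sq1 3 := by
  intro a d h
  rw [← ZMod.intCast_zmod_eq_zero_iff_dvd] at h ⊢
  push_cast at h ⊢
  revert h
  generalize (a : ZMod 3) = a'
  generalize (d : ZMod 3) = d'
  revert a' d'
  decide

theorem exists_solve {q α : ℤ} (h : IsCoprime α q) (β : ℤ) : ∃ j : ℤ, q ∣ j * α + β := by
  obtain ⟨u, v, huv⟩ := h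
  exact ⟨-β * u, β * v, by linear_combination (-β) * huv⟩

/-! ### the translation `t = [[1, 1/q], [0, 1]]` -/

/-- `[[1, k/q], [0, 1]]` -/
def tQ (q : ℕ) (k : ℤ) : GL (Fin 2) ℚ := utQ 1 (k / q) 1 (by norm_num)

theorem val_tQ (q : ℕ) (k : ℤ) :
    ((tQ q k : GL (Fin 2) ℚ) : Matrix (Fin 2) (Fin 2) ℚ) = !![1, (k : ℚ) / q; 0, 1] := rfl

theorem tQ_zero (q : ℕ) : tQ q 0 = 1 := by
  apply Units.ext
  rw [val_tQ]
  ext i j
  fin_cases i <;> fin_cases j <;> simp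

theorem tQ_add (q : ℕ) (k k' : ℤ) : tQ q (k + k') = tQ q k * tQ q k' := by
  apply Units.ext
  rw [Units.val_mul, val_tQ, val_tQ, val_tQ]
  ext i j
  fin_cases i <;> fin_cases j <;> simp [Matrix.mul_apply, Fin.sum_univ_two, add_div, add_comm]

theorem tQ_neg (q : ℕ) (k : ℤ) : tQ q (-k) = (tQ q k)⁻¹ := by
  rw [eq_inv_iff_mul_eq_one, ← tQ_add, neg_add_cancel, tQ_zero]

theorem tQ_mem {q : ℕ} {S : Subgroup (GL (Fin 2) ℚ)} (h : tQ q 1 ∈ S) (k : ℤ) : tQ q k ∈ S := by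
  induction k using Int.induction_on with
  | zero => rw [tQ_zero]; exact S.one_mem
  | succ i ih => rw [tQ_add]; exact S.mul_mem ih h
  | pred i ih => rw [sub_eq_add_neg, tQ_add, tQ_neg q 1]; exact S.mul_mem ih (S.inv_mem h)

theorem val_tQ_eq_smul {q : ℕ} (hq : q ≠ 0) (k : ℤ) :
    ((tQ q k : GL (Fin 2) ℚ) : Matrix (Fin 2) (Fin 2) ℚ)
      = ((q : ℚ)⁻¹) • (!![(q : ℤ), k; 0, (q : ℤ)] : Matrix (Fin 2) (Fin 2) ℤ).map
        (Int.cast : ℤ → ℚ) := by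
  have hq' : (q : ℚ) ≠ 0 := by exact_mod_cast hq
  rw [val_tQ]
  ext i j
  fin_cases i <;> fin_cases j <;> simp [hq', div_eq_inv_mul]

theorem nrm1_tQ {N q : ℕ} (hq : q ≠ 0) (h1 : Sq1 q) (k : ℤ) : Nrm1 (Gamma0 (N * q * q)) (tQ q k) := by
  intro γ hγ
  obtain ⟨c₀, hc₀⟩ := mem_Gamma0_iff_dvd.1 hγ
  have hdet := det_SL2 γ
  obtain ⟨e, he⟩ := h1 (γ 0 0) (γ 1 1) ⟨γ 0 1 * (N * q * c₀), by
    rw [hc₀] at hdet; push_cast at hdet; linear_combination hdet⟩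
  push_cast at hc₀
  let γ' : SL(2, ℤ) := ⟨!![γ 0 0 + k * N * q * c₀, γ 0 1 + k * e - k ^ 2 * N * c₀; γ 1 0,
    γ 1 1 - k * N * q * c₀], by
      rw [Matrix.det_fin_two_of]
      rw [hc₀] at hdet ⊢
      linear_combination hdet + (k * N * q * c₀) * he⟩
  refine ⟨γ', mem_Gamma0_iff_dvd.2 ⟨c₀, by push_cast; exact hc₀⟩, ?_⟩
  refine mul_mapGL_eq_of_int (val_tQ_eq_smul hq k) ?_
  rw [SL2_eta γ]
  show _ = !![_, _; _, _] * _
  rw [Matrix.mul_fin_two, Matrix.mul_fin_two]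
  refine mat2_ext ?_ ?_ ?_ ?_
  · linear_combination k * hc₀
  · linear_combination k * he
  · ring
  · linear_combination (-k) * hc₀

theorem tQ_mem_nrmGrp {N q : ℕ} (hq : q ≠ 0) (h1 : Sq1 q) (k : ℤ) :
    tQ q k ∈ nrmGrp (Gamma0 (N * q * q)) :=
  ⟨nrm1_tQ hq h1 k, by rw [← tQ_neg]; exact nrm1_tQ hq h1 (-k)⟩

/-! ### Atkin-Lehner matrices -/

theorem nrm1_of_AL {N Q : ℕ} {h : GL (Fin 2) ℚ} {c : ℚ} {x y z u : ℤ}
    (hW : (h : Matrix (Fin 2) (Fin 2) ℚ) = c • (!![(Q : ℤ) * x, y; (N : ℤ) * Q * z, (Q : ℤ) * u] :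
      Matrix (Fin 2) (Fin 2) ℤ).map (Int.cast : ℤ → ℚ))
    (hD : (Q : ℤ) * x * u - N * y * z = 1) : Nrm1 (Gamma0 (N * Q)) h := by
  intro γ hγ
  obtain ⟨c₀, hc₀⟩ := mem_Gamma0_iff_dvd.1 hγ
  have hdet := det_SL2 γ
  push_cast at hc₀
  rw [hc₀] at hdet
  let γ' : SL(2, ℤ) := ⟨!![((Q : ℤ) * x * γ 0 0 + y * N * Q * c₀) * u
        - ((Q : ℤ) * x * γ 0 1 + y * γ 1 1) * N * z,
      -y * (x * γ 0 0 + y * N * c₀) + ((Q : ℤ) * x * γ 0 1 + y * γ 1 1) * x;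
      (N : ℤ) * Q * ((z * γ 0 0 + Q * u * c₀) * u - (N * z * γ 0 1 + u * γ 1 1) * z),
      -y * N * (z * γ 0 0 + Q * u * c₀) + ((N : ℤ) * Q * z * γ 0 1 + Q * u * γ 1 1) * x], by
      rw [Matrix.det_fin_two_of]
      linear_combination (((Q : ℤ) * x * u - N * y * z) ^ 2) * hdet
        + ((Q : ℤ) * x * u - N * y * z + 1) * hD⟩
  refine ⟨γ', mem_Gamma0_iff_dvd.2 ⟨_, by push_cast; rfl⟩, ?_⟩
  refine mul_mapGL_eq_of_int hW ?_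
  rw [SL2_eta γ, hc₀]
  show _ = !![_, _; _, _] * _
  rw [Matrix.mul_fin_two, Matrix.mul_fin_two]
  refine mat2_ext ?_ ?_ ?_ ?_
  · linear_combination (-((Q : ℤ) * x * γ 0 0 + y * (N * Q * c₀))) * hD
  · linear_combination (-((Q : ℤ) * x * γ 0 1 + y * γ 1 1)) * hD
  · linear_combination (-((N : ℤ) * Q * z * γ 0 0 + Q * u * (N * Q * c₀))) * hD
  · linear_combination (-((N : ℤ) * Q * z * γ 0 1 + Q * u * γ 1 1)) * hD

/-- the Atkin-Lehner matrix `[[Q x, y], [N Q, Q]]`, `Q x - N y = 1` -/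
def wQ (N Q : ℕ) [NeZero Q] (x y : ℤ) (h : (Q : ℤ) * x - N * y = 1) : GL (Fin 2) ℚ :=
  Matrix.GeneralLinearGroup.mkOfDetNeZero !![(Q : ℚ) * x, (y : ℚ); (N : ℚ) * Q, (Q : ℚ)] (by
    have h' : (Q : ℚ) * x - N * y = 1 := by exact_mod_cast h
    have hQ : (Q : ℚ) ≠ 0 := by exact_mod_cast NeZero.ne Q
    rw [Matrix.det_fin_two_of]
    have : (Q : ℚ) * x * Q - y * (N * Q) = Q := by linear_combination (Q : ℚ) * h'
    rw [this]; exact hQ)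

/-- its inverse -/
def wQi (N Q : ℕ) [NeZero Q] (x y : ℤ) (h : (Q : ℤ) * x - N * y = 1) : GL (Fin 2) ℚ :=
  Matrix.GeneralLinearGroup.mkOfDetNeZero !![(1 : ℚ), -(y : ℚ) / Q; -(N : ℚ), (x : ℚ)] (by
    have h' : (Q : ℚ) * x - N * y = 1 := by exact_mod_cast h
    have hQ : (Q : ℚ) ≠ 0 := by exact_mod_cast NeZero.ne Q
    rw [Matrix.det_fin_two_of]
    have : (1 : ℚ) * x - -(y : ℚ) / Q * -(N : ℚ) = 1 / Q := by
      field_simp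
      linear_combination h'
    rw [this]; exact one_div_ne_zero hQ)

section AL

variable (N Q : ℕ) [NeZero Q] (x y : ℤ) (h : (Q : ℤ) * x - N * y = 1)

theorem val_wQ : ((wQ N Q x y h : GL (Fin 2) ℚ) : Matrix (Fin 2) (Fin 2) ℚ)
    = !![(Q : ℚ) * x, (y : ℚ); (N : ℚ) * Q, (Q : ℚ)] := rfl

theorem val_wQi : ((wQi N Q x y h : GL (Fin 2) ℚ) : Matrix (Fin 2) (Fin 2) ℚ)
    = !![(1 : ℚ), -(y : ℚ) / Q; -(N : ℚ), (x : ℚ)] := rfl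

theorem wQ_inv : (wQ N Q x y h)⁻¹ = wQi N Q x y h := by
  have h' : (Q : ℚ) * x - N * y = 1 := by exact_mod_cast h
  have hQ : (Q : ℚ) ≠ 0 := by exact_mod_cast NeZero.ne Q
  rw [inv_eq_iff_mul_eq_one]
  apply Units.ext
  rw [Units.val_mul, val_wQ, val_wQi, Matrix.mul_fin_two, Units.val_one, Matrix.one_fin_two]
  refine mat2_ext ?_ ?_ ?_ ?_
  · linear_combination h'
  · field_simp; ring
  · ring
  · field_simp; linear_combination h'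

theorem wQ_mem_nrmGrp : wQ N Q x y h ∈ nrmGrp (Gamma0 (N * Q)) := by
  have hQ : (Q : ℚ) ≠ 0 := by exact_mod_cast NeZero.ne Q
  constructor
  · refine nrm1_of_AL (c := 1) (x := x) (y := y) (z := 1) (u := 1) ?_ (by linear_combination h)
    rw [val_wQ, one_smul]
    ext i j
    fin_cases i <;> fin_cases j <;> simp
  · rw [wQ_inv]
    refine nrm1_of_AL (c := (Q : ℚ)⁻¹) (x := 1) (y := -y) (z := -1) (u := x) ?_
      (by linear_combination h)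
    rw [val_wQi]
    ext i j
    fin_cases i <;> fin_cases j <;> simp [hQ] <;> field_simp

end AL

/-! ### `Γ₀(N q) ≤ ⟨Γ₀(N q²), w t w⁻¹⟩` -/

/-- `w t^j w⁻¹` -/
def Vz (N q : ℕ) (x j : ℤ) : SL(2, ℤ) :=
  ⟨!![1 - j * N * q * x, j * q * x ^ 2; -j * N ^ 2 * q, 1 + j * N * q * x], by
    rw [Matrix.det_fin_two_of]; ring⟩

theorem wQ_mul_tQ (N q : ℕ) [NeZero q] [NeZero (q * q)] (x y : ℤ)
    (h : ((q * q : ℕ) : ℤ) * x - N * y = 1) (j : ℤ) :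
    wQ N (q * q) x y h * tQ q j = mapGL ℚ (Vz N q x j) * wQ N (q * q) x y h := by
  have h' : (q : ℚ) * q * x - N * y = 1 := by exact_mod_cast h
  have hq : (q : ℚ) ≠ 0 := by exact_mod_cast NeZero.ne q
  apply Units.ext
  rw [Units.val_mul, Units.val_mul, val_wQ, val_tQ, coe_mapGL_rat]
  have e : ((Vz N q x j : SL(2, ℤ)) : Matrix (Fin 2) (Fin 2) ℤ).map (Int.cast : ℤ → ℚ)
      = !![1 - (j : ℚ) * N * q * x, (j : ℚ) * q * x ^ 2; -(j : ℚ) * N ^ 2 * q,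
        1 + (j : ℚ) * N * q * x] := by
    ext a b
    fin_cases a <;> fin_cases b <;> simp [Vz]
  rw [e, Matrix.mul_fin_two, Matrix.mul_fin_two]
  push_cast
  have hj : (q : ℚ) * ((j : ℚ) / q) = j := by field_simp
  refine mat2_ext ?_ ?_ ?_ ?_
  · ring
  · linear_combination ((q : ℚ) * x) * hj + (-(j : ℚ) * q * x) * h'
  · ring
  · linear_combination ((N : ℚ) * q) * hj + (-(j : ℚ) * q * N) * h'

theorem mapGL_Vz_mem {N q : ℕ} [NeZero q] [NeZero (q * q)] {x y : ℤ}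
    {h : ((q * q : ℕ) : ℤ) * x - N * y = 1} {S : Subgroup (GL (Fin 2) ℚ)} (ht : tQ q 1 ∈ S)
    (hw : wQ N (q * q) x y h ∈ S) (j : ℤ) : mapGL ℚ (Vz N q x j) ∈ S := by
  have e : mapGL ℚ (Vz N q x j) = wQ N (q * q) x y h * tQ q j * (wQ N (q * q) x y h)⁻¹ := by
    rw [wQ_mul_tQ, mul_inv_cancel_right]
  rw [e]
  exact S.mul_mem (S.mul_mem hw (tQ_mem ht j)) (S.inv_mem hw)

theorem mapGL_mem_of_mem_Gamma0_mul {N q : ℕ} [NeZero q] [NeZero (q * q)] (hq : q.Prime)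
    (hqN : ¬ q ∣ N) {x y : ℤ} {h : ((q * q : ℕ) : ℤ) * x - N * y = 1}
    {S : Subgroup (GL (Fin 2) ℚ)} (hΓ : ∀ g ∈ Gamma0 (N * q * q), mapGL ℚ g ∈ S)
    (ht : tQ q 1 ∈ S) (hw : wQ N (q * q) x y h ∈ S) :
    ∀ g ∈ Gamma0 (N * q), mapGL ℚ g ∈ S := by
  intro g hg
  obtain ⟨c₀, hc₀⟩ := mem_Gamma0_iff_dvd.1 hg
  push_cast at hc₀
  have hdet := det_SL2 g
  have hqZ : Prime (q : ℤ) := Nat.prime_iff_prime_int.1 hq
  have hcop : IsCoprime ((N : ℤ) * g 0 0) (q : ℤ) := by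
    rw [isCoprime_comm, hqZ.coprime_iff_not_dvd]
    intro hd
    rcases hqZ.dvd_or_dvd hd with h1 | h1
    · exact hqN (by exact_mod_cast h1)
    · apply hqZ.not_dvd_one
      rw [← hdet, hc₀]
      exact dvd_sub (Dvd.dvd.mul_right h1 _) ⟨g 0 1 * N * c₀, by ring⟩
  obtain ⟨j, e, he⟩ := exists_solve hcop c₀
  have h1 : Vz N q x (-j) * g ∈ Gamma0 (N * q * q) := by
    rw [mem_Gamma0_iff_dvd]
    refine ⟨e - j * N * x * c₀, ?_⟩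
    have : (Vz N q x (-j) * g) 1 0 = (- -j * N ^ 2 * q) * g 0 0 + (1 + -j * N * q * x) * g 1 0 := by
      rw [Matrix.SpecialLinearGroup.coe_mul, Matrix.mul_apply, Fin.sum_univ_two]
      rfl
    rw [this, hc₀]
    push_cast
    linear_combination ((N : ℤ) * q) * he
  have h2 := hΓ _ h1
  rw [map_mul] at h2
  exact (Subgroup.mul_mem_cancel_left S (mapGL_Vz_mem ht hw (-j))).1 h2

/-! ### `δ⁻¹ Γ₀(M) δ ≤ ⟨Γ₀(M q), t⟩` -/

theorem conj_dgQ_eq {q : ℕ} (hq : q ≠ 0) (gam g : SL(2, ℤ)) (k k' : ℤ)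
    (h00 : g 0 0 = gam 0 0 - k * gam 1 0)
    (h01 : (q : ℤ) * g 0 1 = gam 0 1 - gam 0 0 * k' - k * gam 1 1 + k * k' * gam 1 0)
    (h10 : g 1 0 = gam 1 0 * q) (h11 : g 1 1 = gam 1 1 - k' * gam 1 0) :
    (dgQ q)⁻¹ * mapGL ℚ gam * dgQ q = tQ q k * mapGL ℚ g * tQ q k' := by
  have hq' : (q : ℚ) ≠ 0 := by exact_mod_cast hq
  have h01' : (q : ℚ) * g 0 1 = gam 0 1 - gam 0 0 * k' - k * gam 1 1 + k * k' * gam 1 0 := by
    exact_mod_cast h01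
  rw [mul_assoc, inv_mul_eq_iff_eq_mul]
  apply Units.ext
  simp only [Units.val_mul]
  rw [val_dgQ hq, val_tQ, val_tQ, coe_mapGL_rat, coe_mapGL_rat, SL2_eta gam, SL2_eta g, h00, h10,
    h11]
  have e : ∀ a b c d : ℤ, (!![a, b; c, d] : Matrix (Fin 2) (Fin 2) ℤ).map (Int.cast : ℤ → ℚ)
      = !![(a : ℚ), (b : ℚ); (c : ℚ), (d : ℚ)] := by
    intro a b c d
    ext i j
    fin_cases i <;> fin_cases j <;> rfl
  rw [e, e]
  simp only [Matrix.mul_fin_two]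
  push_cast
  refine mat2_ext ?_ ?_ ?_ ?_
  · field_simp; ring
  · field_simp
    linear_combination (-(q : ℚ)) * h01'
  · field_simp; ring
  · field_simp; ring

theorem exists_decomp {M q : ℕ} (hq : q.Prime) {gam : SL(2, ℤ)} (hgam : gam ∈ Gamma0 M) :
    ∃ (k k' : ℤ) (g : SL(2, ℤ)), g ∈ Gamma0 (M * q) ∧
      (dgQ q)⁻¹ * mapGL ℚ gam * dgQ q = tQ q k * mapGL ℚ g * tQ q k' := by
  obtain ⟨c₀, hc₀⟩ := mem_Gamma0_iff_dvd.1 hgam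
  have hdet := det_SL2 gam
  have hqZ : Prime (q : ℤ) := Nat.prime_iff_prime_int.1 hq
  obtain ⟨k', hk'⟩ : ∃ k' : ℤ, ¬ (q : ℤ) ∣ gam 1 1 - k' * gam 1 0 := by
    by_cases hd : (q : ℤ) ∣ gam 1 1
    · refine ⟨1, fun h1 => ?_⟩
      have h2 : (q : ℤ) ∣ gam 1 0 := by
        have := dvd_sub hd h1
        rwa [show gam 1 1 - (gam 1 1 - 1 * gam 1 0) = gam 1 0 by ring] at this
      apply hqZ.not_dvd_one
      rw [← hdet]
      exact dvd_sub (Dvd.dvd.mul_left hd _) (Dvd.dvd.mul_left h2 _)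
    · exact ⟨0, by simpa using hd⟩
  have hcop : IsCoprime (gam 1 1 - k' * gam 1 0) (q : ℤ) := by
    rw [isCoprime_comm, hqZ.coprime_iff_not_dvd]; exact hk'
  obtain ⟨k₀, b₁, hb₁⟩ := exists_solve hcop (-(gam 0 1 - gam 0 0 * k'))
  -- `k = k₀`, `q b₁ = k₀ (d - k' c) - (b - a k')`
  let g : SL(2, ℤ) := ⟨!![gam 0 0 - k₀ * gam 1 0, -b₁; gam 1 0 * q, gam 1 1 - k' * gam 1 0], by
    rw [Matrix.det_fin_two_of]
    linear_combination hdet - (gam 1 0) * hb₁⟩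
  refine ⟨k₀, k', g, mem_Gamma0_iff_dvd.2 ⟨c₀, ?_⟩, conj_dgQ_eq hq.ne_zero gam g k₀ k' rfl ?_ rfl rfl⟩
  · show gam 1 0 * q = _
    rw [hc₀]; push_cast; ring
  · show (q : ℤ) * -b₁ = _
    linear_combination hb₁

theorem conj_dgQ_mem {M q : ℕ} (hq : q.Prime) {S : Subgroup (GL (Fin 2) ℚ)}
    (hΓ : ∀ g ∈ Gamma0 (M * q), mapGL ℚ g ∈ S) (ht : tQ q 1 ∈ S) :
    ∀ gam ∈ Gamma0 M, (dgQ q)⁻¹ * mapGL ℚ gam * dgQ q ∈ S := by
  intro gam hgam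
  obtain ⟨k, k', g, hg, e⟩ := exists_decomp hq hgam
  rw [e]
  exact S.mul_mem (S.mul_mem (tQ_mem ht k) (hΓ g hg)) (tQ_mem ht k')

/-! ### summary: the invariance hypothesis of `car_soft` -/

theorem tQ_mem_stab {N q : ℕ} (hq : q ≠ 0) (h1 : Sq1 q) {P : OnePoint ℚ → A}
    (ht : IsInv (Gamma0 (N * q * q)) (fun s => P (tQ q 1 • s) - P s)) :
    tQ q 1 ∈ stab (Gamma0 (N * q * q)) P :=
  ⟨tQ_mem_nrmGrp hq h1 1, ht⟩

theorem wQ_mem_stab {N q : ℕ} [NeZero (q * q)] {x y : ℤ} {h : ((q * q : ℕ) : ℤ) * x - N * y = 1}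
    {P : OnePoint ℚ → A}
    (hw : IsInv (Gamma0 (N * q * q)) (fun s => P (wQ N (q * q) x y h • s) - P s)) :
    wQ N (q * q) x y h ∈ stab (Gamma0 (N * q * q)) P :=
  ⟨by rw [mul_assoc]; exact wQ_mem_nrmGrp N (q * q) x y h, hw⟩

/-- case `c = 1` (`G = C_q`): only `t` -/
theorem hinv_of_t {N q : ℕ} (hq : q.Prime) {P : OnePoint ℚ → A}
    (hP : IsPot (Gamma0 (N * q * q)) P) (ht : tQ q 1 ∈ stab (Gamma0 (N * q * q)) P) :
    ∀ gam ∈ Gamma0 (N * q), IsInv (Gamma0 (N * q * q))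
      (fun s => P ((dgQ q)⁻¹ • mapGL ℚ gam • dgQ q • s) - P s) := by
  intro gam hgam
  have := (conj_dgQ_mem hq (fun g hg => mapGL_mem_stab hP hg) ht gam hgam).2
  simpa only [mul_smul] using this

/-- case `c = 0`, from the invariance under all of `Γ₀(N q)` and `t` -/
theorem hinv_of_t_of_Gamma0 {N q : ℕ} (hq : q.Prime) {P : OnePoint ℚ → A}
    (hg : ∀ g ∈ Gamma0 (N * q), mapGL ℚ g ∈ stab (Gamma0 (N * q * q)) P)
    (ht : tQ q 1 ∈ stab (Gamma0 (N * q * q)) P) :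
    ∀ gam ∈ Gamma0 N, IsInv (Gamma0 (N * q * q))
      (fun s => P ((dgQ q)⁻¹ • mapGL ℚ gam • dgQ q • s) - P s) := by
  intro gam hgam
  have := (conj_dgQ_mem hq hg ht gam hgam).2
  simpa only [mul_smul] using this

/-- case `c = 0` (`G = ⟨t, w⟩`) -/
theorem hinv_of_t_w {N q : ℕ} [NeZero q] [NeZero (q * q)] (hq : q.Prime) (hqN : ¬ q ∣ N)
    {x y : ℤ} {h : ((q * q : ℕ) : ℤ) * x - N * y = 1} {P : OnePoint ℚ → A}
    (hP : IsPot (Gamma0 (N * q * q)) P) (ht : tQ q 1 ∈ stab (Gamma0 (N * q * q)) P)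
    (hw : wQ N (q * q) x y h ∈ stab (Gamma0 (N * q * q)) P) :
    ∀ gam ∈ Gamma0 N, IsInv (Gamma0 (N * q * q))
      (fun s => P ((dgQ q)⁻¹ • mapGL ℚ gam • dgQ q • s) - P s) :=
  hinv_of_t_of_Gamma0 hq
    (mapGL_mem_of_mem_Gamma0_mul hq hqN (fun _ hg => mapGL_mem_stab hP hg) ht hw) ht

/-- `Γ₀(N q)` normalises `Γ₀(N q²)` for `q ∈ {2, 3}`. -/
theorem mapGL_mem_nrmGrp_of_mem_Gamma0_mul {N q : ℕ} (hq : q.Prime) (hqN : ¬ q ∣ N) (h1 : Sq1 q) :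
    ∀ g ∈ Gamma0 (N * q), mapGL ℚ g ∈ nrmGrp (Gamma0 (N * q * q)) := by
  have : NeZero q := ⟨hq.ne_zero⟩
  have : NeZero (q * q) := ⟨Nat.mul_ne_zero hq.ne_zero hq.ne_zero⟩
  have hcop : IsCoprime ((q * q : ℕ) : ℤ) (N : ℤ) := by
    rw [Nat.isCoprime_iff_coprime]
    have := (Nat.Prime.coprime_iff_not_dvd hq).2 hqN
    exact Nat.Coprime.mul_left this this
  obtain ⟨x, y, hxy⟩ := hcop
  have h : ((q * q : ℕ) : ℤ) * x - N * (-y) = 1 := by linear_combination hxy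
  exact mapGL_mem_of_mem_Gamma0_mul hq hqN (h := h) (fun g hg => mapGL_mem_nrmGrp hg)
    (tQ_mem_nrmGrp hq.ne_zero h1 1) (by rw [mul_assoc]; exact wQ_mem_nrmGrp N (q * q) x (-y) h)

end

end Fermat.Agent.ML.At2
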