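import Fermat.Agent.ML.At2.Car.Bridge4
import Fermat.Agent.ML.At2.Car.Norm
import Fermat.Agent.ML.At2.Car3.Gen

/-!
# ML / AT-2 / [AT2-INV4-BRIDGE], potential form

`w ∈ J₀(N q²)[m]` with `α^* α_* w = d w`, `β^* β_* w = d w` (`d` prime to `m`, `q ∈ {2,3}`).  Then `w` is
the Kummer class of `bd P` for a potential `P` satisfying the two hypotheses of `car_soft_A`:
`P ∘ g - P` (`g ∈ Γ₀(N q)`) and `P ∘ t - P` (`t = [[1,1/q],[0,1]]`) are `Γ₀(N q²)`-invariant.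

`P := u_A`, a `Γ₀(N q)`-potential of `y_A` (`w = α^* y_A`).  `u_B ∘ δ` (`w = β^* y_B`) is a second
potential of the same homomorphism, so `E := u_A - u_B ∘ δ` is `Γ₀(N q²)`-invariant;
`(u_B ∘ δ) ∘ t = u_B ∘ T ∘ δ = u_B ∘ δ + const`, and `E ∘ t` is invariant because `t` normalises
`Γ₀(N q²)`.
-/

set_option autoImplicit false
set_option linter.unusedSectionVars false

open AlgebraicCurve ModularCurve CongruenceSubgroup ModularForm OnePoint
open scoped MatrixGroups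
open Matrix.SpecialLinearGroup (mapGL)

namespace Fermat.Agent.ML.At2

open Fermat.Agent.GAL Fermat.Agent.GAL.PC Fermat.Agent.RIB Fermat.Agent.S41 Fermat.Agent.S41.Soft

noncomputable section

/-- `δ Γ₀(N q) δ⁻¹ ≤ Γ₀(N)` in `GL₂(ℚ)` (any `q ≠ 0`). -/
theorem exists_conj_dgQ' {N : ℕ} [NeZero N] (q : ℕ) [NeZero q] (g : SL(2, ℤ))
    (hg : g ∈ Gamma0 (N * q)) :
    ∃ g' ∈ Gamma0 N, dgQ q * mapGL ℚ g = mapGL ℚ g' * dgQ q := by
  obtain ⟨g', hg'⟩ := exists_conj_diag (N := N) q ⟨g, hg⟩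
  refine ⟨g', g'.2, ?_⟩
  apply Soft.castGL_injective
  rw [map_mul, map_mul, Soft.castGL_dgQ, Soft.castGL_mapGL, Soft.castGL_mapGL]
  exact hg'

/-- `u ∘ δ` is a potential for `Γ₀(N q)` (any `q ≠ 0`; also `q ∣ N`). -/
theorem comp_dgQ_mem_Symb {A : Type*} [AddCommGroup A] {N : ℕ} [NeZero N] (q : ℕ) [NeZero q]
    {u : OnePoint ℚ → A} (hu : u ∈ Symb (Gamma0 N) A) :
    (fun s => u (dgQ q • s)) ∈ Symb (Gamma0 (N * q)) A := by
  intro g hg s t
  obtain ⟨g', hg', e⟩ := exists_conj_dgQ' (N := N) q g hg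
  show u (dgQ q • mapGL ℚ g • s) - u (dgQ q • s) = u (dgQ q • mapGL ℚ g • t) - u (dgQ q • t)
  rw [← mul_smul, ← mul_smul, e, mul_smul, mul_smul]
  exact hu g' hg' _ _

theorem tQ_one_eq_trQ (q : ℕ) : tQ q 1 = trQ q := by
  apply Units.ext
  simp [tQ, trQ]

variable {N m : ℕ} [NeZero N] [NeZero m]

/-- an `m`-torsion class is the Kummer class of `bd u`. -/
theorem exists_symb_of_torsion {y : JZero N} (hy : m • y = 0) :
    ∃ u : Symb (Gamma0 N) (ZMod m),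
      IsKummer N m (chiOf (bd (Gamma0 N) (ZMod m) u : Additive (Gamma0 N) →+ ZMod m)) y := by
  obtain ⟨c, hc⟩ := exists_goodHom_of_torsion N m y hy
  obtain ⟨u, hu⟩ := bd_surjective (⟨_, goodHom_mem_HH c⟩ : HH (ZMod m) N)
  exact ⟨u, by rw [hu]; exact hc⟩

/-- **[AT2-INV4-BRIDGE], potential form** : the hypotheses of `car_soft_A`. -/
theorem exists_pot_of_pull_push {q : ℕ} [NeZero q] (h1 : Sq1 q) {d : ℕ} (hdm : Nat.Coprime d m)
    {w : JZero (N * q * q)} (hw : m • w = 0)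
    (hA : pullA (N * q) q (SS.pushA (N * q) q w) = d • w)
    (hB : pullB (N * q) q (SS.pushB (N * q) q w) = d • w) :
    ∃ P : Symb (Gamma0 (N * q * q)) (ZMod m),
      IsKummer (N * q * q) m (chiOf (bd (Gamma0 (N * q * q)) (ZMod m) P :
        Additive (Gamma0 (N * q * q)) →+ ZMod m)) w ∧
      (∀ g ∈ Gamma0 (N * q),
        IsInv (Gamma0 (N * q * q)) (fun s => P.1 (mapGL ℚ g • s) - P.1 s)) ∧
      IsInv (Gamma0 (N * q * q)) (fun s => P.1 (trQ q • s) - P.1 s) := by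
  have hq0 : q ≠ 0 := NeZero.ne q
  obtain ⟨yA, hyA, eA⟩ := exists_pull_eq_of_pull_push (pullA (N * q) q) (SS.pushA (N * q) q) hdm hw hA
  obtain ⟨yB, hyB, eB⟩ := exists_pull_eq_of_pull_push (pullB (N * q) q) (SS.pushB (N * q) q) hdm hw hB
  obtain ⟨uA, hkA⟩ := exists_symb_of_torsion hyA
  obtain ⟨uB, hkB⟩ := exists_symb_of_torsion hyB
  have hsA : uA.1 ∈ Symb (Gamma0 (N * q * q)) (ZMod m) :=
    (isOp_res (S41.Gamma0_mul_le (N * q) q)).symb uA.1 uA.2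
  have hsB : (fun s => uB.1 (dgQ q • s)) ∈ Symb (Gamma0 (N * q * q)) (ZMod m) :=
    comp_dgQ_mem_Symb q uB.2
  have kA := isKummer_pullA_bd q uA hkA hsA
  have kB := isKummer_pullB_bd q uB hkB hsB
  rw [eA] at kA
  rw [eB] at kB
  have huniq := isKummer_hom_unique kA kB
  -- the difference is invariant
  have hE : IsInv (Gamma0 (N * q * q)) (fun s => uA.1 s - uB.1 (dgQ q • s)) := by
    have h3 : bd (Gamma0 (N * q * q)) (ZMod m)
        ((⟨uA.1, hsA⟩ : Symb (Gamma0 (N * q * q)) (ZMod m)) - ⟨fun s => uB.1 (dgQ q • s), hsB⟩)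
          = 0 := by
      rw [map_sub, sub_eq_zero]
      exact Subtype.ext huniq
    exact (bd_eq_zero_iff _).1 h3
  refine ⟨⟨uA.1, hsA⟩, kA, ?_, ?_⟩
  · intro g hg γ _ s
    obtain ⟨c, hc⟩ := (mem_Symb_iff_soft.1 uA.2) g hg
    show uA.1 (mapGL ℚ g • mapGL ℚ γ • s) - uA.1 (mapGL ℚ γ • s) = uA.1 (mapGL ℚ g • s) - uA.1 s
    rw [hc, hc]
    abel
  · have hT : ModularGroup.T ∈ Gamma0 (N * q) := by
      have := T_zpow_mem (N * q) 1
      rwa [zpow_one] at this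
    obtain ⟨c, hc⟩ := (mem_Symb_iff_soft.1 uB.2) _ hT
    have hEt : IsInv (Gamma0 (N * q * q)) (fun s => uA.1 (trQ q • s) - uB.1 (dgQ q • trQ q • s)) := by
      have := isInv_comp_nrm hE (h := trQ q) (by rw [← tQ_one_eq_trQ]; exact nrm1_tQ hq0 h1 1)
      exact this
    have key : ∀ s, uA.1 (trQ q • s) - uA.1 s =
        (uA.1 (trQ q • s) - uB.1 (dgQ q • trQ q • s)) - (uA.1 s - uB.1 (dgQ q • s)) + c := by
      intro s
      have e : uB.1 (dgQ q • trQ q • s) = uB.1 (dgQ q • s) + c := by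
        rw [← mul_smul, ← mapGL_T_mul_dgQ hq0, mul_smul, hc]
      rw [e]
      abel
    intro γ hγ s
    show uA.1 (trQ q • mapGL ℚ γ • s) - uA.1 (mapGL ℚ γ • s) = uA.1 (trQ q • s) - uA.1 s
    rw [key, key s]
    have a1 := hEt γ hγ s
    have a2 := hE γ hγ s
    simp only at a1 a2
    rw [a1, a2]

end

end Fermat.Agent.ML.At2
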