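import Fermat.Agent.ML.Ihara.Tors

/-!
# ML / AT-2 / Car / Ell : the elliptic defect is killed by `T_r`, `r ≡ 2 mod 3`

`a ∈ HH (ZMod m) N` (a homomorphism `Γ₀(N) → ℤ/m` trivial on parabolic elements), `m` odd.  It kills
`± 1` and the elements of order `4`, but not necessarily the elliptic elements `e` of order `3`, `6`
(when `3 ∣ m`).  If `r ≡ 2 mod 3` is a prime not dividing `N`, then `e` acts on `ℙ¹(𝔽_r)` without
fixed point, all its orbits have length `3`, and the transfer formula gives
`(T_r a)(e) = ∑_{orbits} a (± 1) = 0`.  So `T_r a` is a `GoodHom`, i.e. a point of `J₀(N)[m]`.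
-/

set_option autoImplicit false
set_option linter.unusedSectionVars false

open CongruenceSubgroup ModularCurve
open scoped MatrixGroups

namespace Fermat.Agent.ML.At2

open Fermat.Agent.GAL Fermat.Agent.S41 Fermat.Agent.S41.EP

/-! ### orbit sums -/

/-- a permutation with `σ³ = 1` and without fixed point: a function whose sums over the orbits vanish
has sum zero. -/
theorem sum_eq_zero_of_orbit3 {X A : Type*} [Fintype X] [DecidableEq X] [AddCommMonoid A]
    (σ : Equiv.Perm X) (h3 : ∀ x, σ (σ (σ x)) = x) (hfix : ∀ x, σ x ≠ x) (f : X → A)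
    (hf : ∀ x, f x + f (σ x) + f (σ (σ x)) = 0) : ∑ x, f x = 0 := by
  have key : ∀ n : ℕ, ∀ s : Finset X, s.card = n → (∀ x ∈ s, σ x ∈ s) → ∑ x ∈ s, f x = 0 := by
    intro n
    induction n using Nat.strong_induction_on with
    | _ n ih =>
      intro s hs hst
      rcases s.eq_empty_or_nonempty with rfl | ⟨x, hx⟩
      · simp
      have hx1 : σ x ∈ s := hst x hx
      have hx2 : σ (σ x) ∈ s := hst _ hx1
      have n01 : x ≠ σ x := fun h => hfix x h.symm
      have n12 : σ x ≠ σ (σ x) := fun h => hfix (σ x) h.symm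
      have n02 : x ≠ σ (σ x) := by
        intro h
        apply hfix (σ (σ x))
        rw [h3 x]
        exact h
      set o : Finset X := {x, σ x, σ (σ x)} with ho
      have hos : o ⊆ s := by
        intro y hy
        simp only [ho, Finset.mem_insert, Finset.mem_singleton] at hy
        rcases hy with rfl | rfl | rfl <;> assumption
      have hsum : ∑ y ∈ o, f y = 0 := by
        rw [ho, Finset.sum_insert (by simp [n01, n02]), Finset.sum_insert (by simp [n12]),
          Finset.sum_singleton, ← add_assoc]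
        exact hf x
      have hcard : (s \ o).card < n := by
        rw [← hs]
        apply Finset.card_lt_card
        refine ⟨Finset.sdiff_subset, fun h => ?_⟩
        have := h hx
        simp [ho] at this
      have hst' : ∀ y ∈ s \ o, σ y ∈ s \ o := by
        intro y hy
        rw [Finset.mem_sdiff] at hy ⊢
        refine ⟨hst y hy.1, fun h => hy.2 ?_⟩
        simp only [ho, Finset.mem_insert, Finset.mem_singleton] at h ⊢
        rcases h with h | h | h
        · right; right
          apply σ.injective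
          rw [h, h3]
        · left; exact σ.injective h
        · right; left; exact σ.injective h
      rw [← Finset.sum_sdiff hos, hsum, add_zero]
      exact ih _ hcard _ rfl hst'
  exact key _ Finset.univ rfl fun _ _ => Finset.mem_univ _

/-! ### arithmetic -/

theorem no_root_of_mod_three {r : ℕ} (hr : r.Prime) (hr3 : r % 3 = 2) (μ : ZMod r)
    (h : μ ^ 2 + μ + 1 = 0) : False := by
  have : Fact r.Prime := ⟨hr⟩
  have h3 : μ ^ 3 = 1 := by linear_combination (μ - 1) * h
  have hμ0 : μ ≠ 0 := by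
    rintro rfl
    simp at h3
  have hF : μ ^ (r - 1) = 1 := ZMod.pow_card_sub_one_eq_one hμ0
  obtain ⟨k, hk⟩ : ∃ k, r - 1 = 3 * k + 1 := ⟨r / 3, by omega⟩
  rw [hk, pow_succ, pow_mul, h3, one_pow, one_mul] at hF
  rw [hF] at h
  have h30 : ((3 : ℕ) : ZMod r) = 0 := by
    push_cast
    linear_combination h
  rw [ZMod.natCast_eq_zero_iff] at h30
  have := (Nat.prime_dvd_prime_iff_eq hr Nat.prime_three).1 h30
  omega

theorem eq_zero_of_nsmul_coprime {m n : ℕ} (h : Nat.Coprime n m) {a : ZMod m} (ha : n • a = 0) :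
    a = 0 := by
  rw [nsmul_eq_mul] at ha
  exact ((ZMod.isUnit_iff_coprime n m).2 h).mul_right_eq_zero.1 ha

/-! ### the representatives `matT` -/

theorem matT_eq_of_mul {r : ℕ} [NeZero r] (hr : 2 ≤ r) {x y : OnePoint (ZMod r)} {s : ℤ}
    (hs : s = 1 ∨ s = -1) (E : Matrix (Fin 2) (Fin 2) ℤ) (h : s • matT r x = E * matT r y) :
    x = y := by
  have hrZ : (2 : ℤ) ≤ r := by exact_mod_cast hr
  have h00 := congrFun (congrFun h 0) 0
  have h01 := congrFun (congrFun h 0) 1
  have h10 := congrFun (congrFun h 1) 0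
  have h11 := congrFun (congrFun h 1) 1
  induction x using OnePoint.rec with
  | infty =>
    induction y using OnePoint.rec with
    | infty => rfl
    | coe k =>
      exfalso
      simp [matT, matU, Matrix.mul_apply, Fin.sum_univ_two] at h00 h01 h10 h11
      rw [← h10] at h11
      have : (r : ℤ) ∣ s := ⟨E 1 1, by linarith⟩
      rcases hs with rfl | rfl
      · have := Int.le_of_dvd one_pos this; omega
      · have := Int.le_of_dvd one_pos ((dvd_neg).1 this); omega
  | coe j =>
    induction y using OnePoint.rec with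
    | infty =>
      exfalso
      simp [matT, matU, Matrix.mul_apply, Fin.sum_univ_two] at h00 h01 h10 h11
      have : (r : ℤ) ∣ s := ⟨E 0 0, by linarith⟩
      rcases hs with rfl | rfl
      · have := Int.le_of_dvd one_pos this; omega
      · have := Int.le_of_dvd one_pos ((dvd_neg).1 this); omega
    | coe k =>
      simp [matT, matU, Matrix.mul_apply, Fin.sum_univ_two] at h00 h01 h10 h11
      congr 1
      have hd : (r : ℤ) ∣ (j.cast : ℤ) - (k.cast : ℤ) := by
        rcases hs with rfl | rfl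
        · exact ⟨E 0 1, by rw [← h00] at h01; linarith⟩
        · exact ⟨-E 0 1, by rw [← h00] at h01; linarith⟩
      have h1 : (((j.cast : ℤ)) : ZMod r) = (((k.cast : ℤ)) : ZMod r) := by
        rw [← sub_eq_zero, ← Int.cast_sub]
        exact (ZMod.intCast_zmod_eq_zero_iff_dvd _ _).2 hd
      simpa using h1

/-- a fixed point of `γ` on the representatives gives a root of the characteristic polynomial mod `r`. -/
theorem exists_root_of_fixed {r : ℕ} [NeZero r] (x : OnePoint (ZMod r))
    (G C : Matrix (Fin 2) (Fin 2) ℤ) (hdet : G 0 0 * G 1 1 - G 0 1 * G 1 0 = 1)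
    (h : matT r x * G = C * matT r x) :
    ∃ l : ℤ, (r : ℤ) ∣ l ^ 2 - (G 0 0 + G 1 1) * l + 1 := by
  have h00 := congrFun (congrFun h 0) 0
  have h01 := congrFun (congrFun h 0) 1
  have h10 := congrFun (congrFun h 1) 0
  have h11 := congrFun (congrFun h 1) 1
  induction x using OnePoint.rec with
  | infty =>
    simp [matT, Matrix.mul_apply, Fin.sum_univ_two] at h00 h01 h10 h11
    refine ⟨G 0 0, -(G 0 1 * C 1 0), ?_⟩
    linear_combination -hdet - G 0 1 * h10
  | coe j =>
    simp [matT, matU, Matrix.mul_apply, Fin.sum_univ_two] at h00 h01 h10 h11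
    refine ⟨G 0 0 + (j.cast : ℤ) * G 1 0, -(G 1 0 * C 0 1), ?_⟩
    rw [← h00] at h01
    linear_combination -hdet - G 1 0 * h01

theorem det_matT_ne_zero {r : ℕ} [NeZero r] (x : OnePoint (ZMod r)) : (matT r x).det ≠ 0 := by
  have hr : (r : ℤ) ≠ 0 := by exact_mod_cast NeZero.ne r
  induction x using OnePoint.rec with
  | infty => simpa [matT, Matrix.det_fin_two] using hr
  | coe j => simpa [matT, matU, Matrix.det_fin_two] using hr

theorem eq_of_mul_matT {r : ℕ} [NeZero r] (x : OnePoint (ZMod r))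
    {D D' : Matrix (Fin 2) (Fin 2) ℤ} (h : D * matT r x = D' * matT r x) : D = D' := by
  have h1 := congrArg (· * (matT r x).adjugate) h
  simp only [Matrix.mul_assoc, Matrix.mul_adjugate, Matrix.mul_smul, Matrix.mul_one] at h1
  exact smul_right_injective _ (det_matT_ne_zero x) h1

/-! ### the elliptic elements of order `3`, `6` -/

theorem toMat_det {N : ℕ} (γ : Gamma0 N) :
    toMat γ 0 0 * toMat γ 1 1 - toMat γ 0 1 * toMat γ 1 0 = 1 := by
  have := (γ : SL(2, ℤ)).2
  rwa [Matrix.det_fin_two] at this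

theorem toMat_cube {N : ℕ} (γ : Gamma0 N) {t : ℤ} (ht : t = 1 ∨ t = -1)
    (htr : toMat γ 0 0 + toMat γ 1 1 = t) : toMat γ * toMat γ * toMat γ = (-t) • 1 := by
  have hd := toMat_det γ
  set G := toMat γ with hG
  have e : G = !![G 0 0, G 0 1; G 1 0, G 1 1] := (Matrix.etaExpand_eq G).symm
  have h11 : G 1 1 = t - G 0 0 := by linarith
  have ht2 : t * t = 1 := by rcases ht with rfl | rfl <;> norm_num
  rw [e]
  ext i j
  fin_cases i <;> fin_cases j <;>
    simp [Matrix.mul_apply, Fin.sum_univ_two, h11] <;> rw [h11] at hd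
  · linear_combination (-(G 0 0 + t)) * hd + G 0 0 * ht2
  · linear_combination (-(G 0 1)) * hd + G 0 1 * ht2
  · linear_combination (-(G 1 0)) * hd + G 1 0 * ht2
  · linear_combination (-(t - G 0 0 + t)) * hd + (t - G 0 0) * ht2

theorem toMat_mul {N : ℕ} (a b : Gamma0 N) : toMat (a * b) = toMat a * toMat b := by
  simp [toMat]

theorem eq_one_of_toMat {N : ℕ} {g : Gamma0 N} (h : toMat g = 1) : g = 1 := by
  apply Subtype.ext
  apply Subtype.ext
  exact h

/-- the Hecke transfer `T_r φ` kills the elliptic elements of order `3` and `6`. -/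
theorem transfer_elliptic {N m r : ℕ} [NeZero r] (hm : Odd m) (hr : r.Prime) (hr3 : r % 3 = 2)
    (hrN : ¬ r ∣ N) {φ ψ : Additive (Gamma0 N) →+ ZMod m} (h : IsHeckeT N r φ ψ) (γ : Gamma0 N)
    {t : ℤ} (ht : t = 1 ∨ t = -1) (htr : toMat γ 0 0 + toMat γ 1 1 = t) :
    ψ (Additive.ofMul γ) = 0 := by
  classical
  obtain ⟨σ, c, hc⟩ := exists_transferZ_T hr hrN γ
  rw [h γ σ c hc]
  have hs : -t = 1 ∨ -t = -1 := by rcases ht with rfl | rfl <;> simp
  have h3 : ∀ x, (-t) • matT r x =
      toMat (c x * c (σ x) * c (σ (σ x))) * matT r (σ (σ (σ x))) := by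
    intro x
    calc (-t) • matT r x = matT r x * (toMat γ * toMat γ * toMat γ) := by
          rw [toMat_cube γ ht htr, Matrix.mul_smul, Matrix.mul_one]
      _ = matT r x * toMat γ * toMat γ * toMat γ := by simp only [Matrix.mul_assoc]
      _ = toMat (c x) * (matT r (σ x) * toMat γ) * toMat γ := by
          rw [hc x]; simp only [Matrix.mul_assoc]
      _ = toMat (c x) * toMat (c (σ x)) * (matT r (σ (σ x)) * toMat γ) := by
          rw [hc (σ x)]; simp only [Matrix.mul_assoc]
      _ = toMat (c x * c (σ x) * c (σ (σ x))) * matT r (σ (σ (σ x))) := by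
          rw [hc (σ (σ x)), toMat_mul, toMat_mul]; simp only [Matrix.mul_assoc]
  have hσ3 : ∀ x, σ (σ (σ x)) = x := fun x => (matT_eq_of_mul hr.two_le hs _ (h3 x)).symm
  have hfix : ∀ x, σ x ≠ x := by
    intro x hx
    have e := hc x
    rw [hx] at e
    obtain ⟨l, hl⟩ := exists_root_of_fixed x _ _ (toMat_det γ) e
    rw [htr] at hl
    have h0 : ((l ^ 2 - t * l + 1 : ℤ) : ZMod r) = 0 := (ZMod.intCast_zmod_eq_zero_iff_dvd _ _).2 hl
    apply no_root_of_mod_three hr hr3 ((-t * l : ℤ) : ZMod r)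
    rcases ht with rfl | rfl <;> push_cast at h0 ⊢ <;> linear_combination h0
  apply sum_eq_zero_of_orbit3 σ hσ3 hfix
  intro x
  rw [← map_add, ← map_add, ← ofMul_mul, ← ofMul_mul]
  set g := c x * c (σ x) * c (σ (σ x)) with hg
  have hgm : toMat g = (-t) • 1 := by
    apply eq_of_mul_matT x
    have := h3 x
    rw [hσ3 x] at this
    rw [← this, Matrix.smul_mul, Matrix.one_mul]
  have hgg : g * g = 1 := by
    apply eq_one_of_toMat
    rw [toMat_mul, hgm]
    rcases ht with rfl | rfl <;> simp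
  have h2 : 2 • φ (Additive.ofMul g) = 0 := by
    rw [two_nsmul, ← map_add, ← ofMul_mul, hgg]
    simp
  exact eq_zero_of_nsmul_coprime (Nat.coprime_two_left.2 hm) h2

/-- elements of order `4` -/
theorem hom_order_four {N m : ℕ} (hm : Odd m) (ψ : Additive (Gamma0 N) →+ ZMod m) (γ : Gamma0 N)
    (htr : toMat γ 0 0 + toMat γ 1 1 = 0) : ψ (Additive.ofMul γ) = 0 := by
  have hd := toMat_det γ
  have h4 : γ * γ * (γ * γ) = 1 := by
    apply eq_one_of_toMat
    rw [toMat_mul, toMat_mul]
    set G := toMat γ with hG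
    have e : G = !![G 0 0, G 0 1; G 1 0, G 1 1] := (Matrix.etaExpand_eq G).symm
    have h11 : G 1 1 = - G 0 0 := by linarith
    have h2 : G * G = (-1 : ℤ) • 1 := by
      rw [e]
      ext i j
      fin_cases i <;> fin_cases j <;>
        simp [Matrix.mul_apply, Fin.sum_univ_two, h11] <;> rw [h11] at hd
      · linear_combination (-1 : ℤ) * hd
      · ring
      · ring
      · linear_combination (-1 : ℤ) * hd
    rw [h2]
    simp
  have h : 4 • ψ (Additive.ofMul γ) = 0 := by
    have : (4 : ℕ) • ψ (Additive.ofMul γ) = ψ (Additive.ofMul (γ * γ * (γ * γ))) := by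
      simp only [ofMul_mul, map_add]
      abel
    rw [this, h4]
    simp
  refine eq_zero_of_nsmul_coprime ?_ h
  have : Nat.Coprime (2 ^ 2) m := Nat.Coprime.pow_left 2 (Nat.coprime_two_left.2 hm)
  simpa using this

/-- **the elliptic defect**: `T_r φ` is a good homomorphism. -/
theorem TH_mem_goodHom {N m r : ℕ} [NeZero N] [NeZero m] (hm : Odd m) (hr : r.Prime)
    (hr3 : r % 3 = 2) (hrN : ¬ r ∣ N) (φ : S41.HH (ZMod m) N) :
    (S41.TH (ZMod m) N r φ : Additive (Gamma0 N) →+ ZMod m) ∈ GAL.GoodHom N m := by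
  have : NeZero r := ⟨hr.ne_zero⟩
  intro γ hγ
  have hγ' : |toMat γ 0 0 + toMat γ 1 1| ≤ 2 := hγ
  rw [abs_le] at hγ'
  obtain ⟨t, ht⟩ : ∃ t : ℤ, toMat γ 0 0 + toMat γ 1 1 = t := ⟨_, rfl⟩
  have hcases : t = 2 ∨ t = -2 ∨ t = 0 ∨ t = 1 ∨ t = -1 := by omega
  rcases hcases with h | h | h | h | h
  · apply isParabolicHom_of_mem_H (S41.TH (ZMod m) N r φ).2 γ
    rw [Matrix.trace_fin_two]
    show (toMat γ 0 0 + toMat γ 1 1) ^ 2 = 4
    rw [ht, h]; norm_num
  · apply isParabolicHom_of_mem_H (S41.TH (ZMod m) N r φ).2 γ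
    rw [Matrix.trace_fin_two]
    show (toMat γ 0 0 + toMat γ 1 1) ^ 2 = 4
    rw [ht, h]; norm_num
  · exact hom_order_four hm _ γ (ht.trans h)
  · exact transfer_elliptic hm hr hr3 hrN (isHeckeT_TH hr hrN φ) γ (Or.inl h) ht
  · exact transfer_elliptic hm hr hr3 hrN (isHeckeT_TH hr hrN φ) γ (Or.inr h) ht

/-- Kummer form: `T_r φ` is the character of a point of `J₀(N)[m]`. -/
theorem exists_kumRel_TH {N m r : ℕ} [NeZero N] [NeZero m] (hm : Odd m) (hr : r.Prime)
    (hr3 : r % 3 = 2) (hrN : ¬ r ∣ N) (φ : S41.HH (ZMod m) N) :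
    ∃ x : JZero N, m • x = 0 ∧
      KumRel N m (S41.TH (ZMod m) N r φ : Additive (Gamma0 N) →+ ZMod m) x := by
  obtain ⟨κ, -, hk, -, htor⟩ := exists_kummerHom_surj N m
  have hmem := TH_mem_goodHom hm hr hr3 hrN φ
  generalize (S41.TH (ZMod m) N r φ : Additive (Gamma0 N) →+ ZMod m) = c at hmem ⊢
  exact ⟨κ ⟨c, hmem⟩, htor _, hk ⟨c, hmem⟩⟩

end Fermat.Agent.ML.At2
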