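import Fermat.Agent.ML.At2.Car.Point
import Fermat.Agent.ML.At2.Car.Ell
import Fermat.Agent.ML.At2.Car3.Inv
import Fermat.Agent.ML.At2.Car3.Soft
import Fermat.Agent.ML.At2.Ops.Kum
import Fermat.Agent.ML.At2.PrimeR5
import Fermat.Agent.RIB.Up.Vanish

/-!
# ML / AT-2 / (E2) [CAR3] : final forms `e2_A`, `e2_B`

`W(M) = 0` ⟹ the invariants of `W(9 M)` under `⟨t, w₉⟩` (`3 ∤ M`), resp. of `W(3 M)` under `⟨t⟩`
(`3 ∣ M`), vanish.  (`t : τ ↦ τ + 1/3`, `w₉` the Atkin-Lehner involution.)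
-/

set_option autoImplicit false
set_option linter.unusedSectionVars false

open AlgebraicCurve ModularCurve CongruenceSubgroup OnePoint ModularForm
open scoped MatrixGroups
open Matrix.SpecialLinearGroup (mapGL)

namespace Fermat.Agent.ML.At2

open Fermat.Agent.GAL Fermat.Agent.GAL.PC Fermat.Agent.S41 Fermat.Agent.S41.Soft Fermat.Agent.RIB
  Fermat.Agent.ML Fermat.Agent.S48.ModL.HP Fermat.Agent.RED.ES

local notation "GQ" => (AlgebraicClosure ℚ ≃ₐ[ℚ] AlgebraicClosure ℚ)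

noncomputable section

/-! ### the contracts of `Point.lean` -/

theorem softStmt_zero {N q m l : ℕ} (hq : q.Prime) (hl : l.Prime)
    (hl1 : ((N * q * q : ℕ) : ℤ) ∣ (l : ℤ) - 1) : SoftStmt N q N m l :=
  fun _ hP hinv => car_soft hq hl hl1 (Gamma0 N) le_rfl
    (by have := T_zpow_mem N 1; rwa [zpow_one] at this) hP hinv

theorem softStmt_one {N q m l : ℕ} (hq : q.Prime) (hl : l.Prime)
    (hl1 : ((N * q * q : ℕ) : ℤ) ∣ (l : ℤ) - 1) : SoftStmt N q (N * q) m l :=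
  fun _ hP hinv => car_soft hq hl hl1 (Gamma0 (N * q)) (S41.Gamma0_mul_le N q)
    (by have := T_zpow_mem (N * q) 1; rwa [zpow_one] at this) hP hinv

theorem ellStmt {K m r : ℕ} [NeZero K] [NeZero m] (hm : Odd m) (hr : r.Prime) (hr3 : r % 3 = 2)
    (hrK : ¬ r ∣ K) : EllStmt K m r := fun φ => TH_mem_goodHom hm hr hr3 hrK φ

/-! ### the operators `t`, `w` -/

theorem castGL_tQ_three : castGL (tQ 3 1) = trMat (1 / 3) := by
  apply Units.ext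
  rw [trMat, val_upperTriangularGL]
  ext i j
  show ((tQ 3 1 : GL (Fin 2) ℚ) i j : ℝ) = _
  have e : ∀ a b, (tQ 3 1 : GL (Fin 2) ℚ) a b
      = (!![1, ((1 : ℤ) : ℚ) / (3 : ℕ); 0, 1] : Matrix (Fin 2) (Fin 2) ℚ) a b := fun a b => by
    rw [← val_tQ]
  rw [e]
  fin_cases i <;> fin_cases j <;> simp

theorem car_castGL_wQ (N Q : ℕ) [NeZero Q] (x y : ℤ) (h : (Q : ℤ) * x - N * y = 1) :
    castGL (wQ N Q x y h) = wGL N Q x y h := by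
  apply Units.ext
  ext i j
  show ((wQ N Q x y h : GL (Fin 2) ℚ) i j : ℝ) = wMat N Q x y i j
  have e : ∀ a b, (wQ N Q x y h : GL (Fin 2) ℚ) a b
      = (!![(Q : ℚ) * x, (y : ℚ); (N : ℚ) * Q, (Q : ℚ)] : Matrix (Fin 2) (Fin 2) ℚ) a b :=
    fun a b => by rw [← val_wQ]
  rw [e, wMat]
  fin_cases i <;> fin_cases j <;> simp

theorem kumConj_tHom {L m : ℕ} [NeZero L] (h9 : 9 ∣ L) :
    KumConj L m (tQ 3 1) (RIB.jPull (tHom L h9 omega3 omega3_pow)) := by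
  intro χ χ' x hx hχ
  rw [castGL_tQ_three] at hχ
  exact isKummer_tHom h9 hx χ' hχ

theorem kumConj_wHom {L N' Q m : ℕ} [NeZero L] [NeZero N'] [NeZero Q] (hL : L = N' * Q) (x y : ℤ)
    (h : (Q : ℤ) * x - N' * y = 1) :
    KumConj L m (wQ N' Q x y h) (RIB.jPull (wHom L N' Q hL x y h)) := by
  intro χ χ' z hz hχ
  rw [car_castGL_wQ] at hχ
  exact isKummer_wHom L N' Q hL x y h hz χ' hχ

/-! ### exact image -/

section Image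

variable {K L p : ℕ} [NeZero K] [NeZero L] {S : Set ℕ} {θ : ℕ → ℤ}

/-- `d x = T_{r₀} (T_l - l - 1) y`, `y` in the `θ`-part, `ker d` killed by `T_l - l - 1` on torsion
⟹ `y ∈ d (θ-part)`. -/
theorem image_of_eq (hp : p.Prime) (d : JZero K →+ JZero L)
    (hdσ : ∀ (σ : GQ) x, d (σ • x) = σ • d x)
    (hS : ∀ r : ℕ, r.Prime → r ∉ S → ¬ r ∣ K * p ∧ ¬ r ∣ L * p)
    (r₀ l : Nat.Primes) (hr₀ : (r₀ : ℕ) ∉ S) (hθr : ¬ (p : ℤ) ∣ θ r₀) (hl : (l : ℕ) ∉ S)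
    (hθl : ¬ (p : ℤ) ∣ θ l - (((l : ℕ) : ℤ) + 1))
    (hker : ∀ x ∈ ptors (JZero K) p, d x = 0 → eis K l x = 0)
    {y : JZero L} (hy : y ∈ thetaPart L p S θ) {x : JZero K} (hx : x ∈ ptors (JZero K) p)
    (h : d x = heckeOperatorBar L r₀ (eis L l y)) : ∃ x' ∈ thetaPart K p S θ, d x' = y := by
  have hd : ∀ r : Nat.Primes, (r : ℕ) ∉ S → ∀ x ∈ ptors (JZero K) p,
      d (heckeOperatorBar K r x) = heckeOperatorBar L r (d x) := fun r hr x hx =>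
    SS.map_hecke_of_equivariant (SS.es_all K p).2 (SS.es_all L p).2 d hdσ r
      (hS r r.2 hr).1 (hS r r.2 hr).2 x hx
  have hdx : d x ∈ thetaPart L p S θ := by
    rw [h]; exact hecke_mem_thetaPart r₀ (eis_mem_thetaPart l hy)
  have hEx : eis K l x ∈ thetaPart K p S θ :=
    mem_thetaPart_of_map_mem d hd _ (fun r => commute_eis_hecke l r) hker hx hdx
  have hdeis : d (eis K l x) = eis L l (d x) := by
    rw [eis_apply, eis_apply, map_sub, map_zsmul, hd l hl x hx]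
  have h1 : eis L l (heckeOperatorBar L r₀ (eis L l y)) ∈ (thetaPart K p S θ).map d :=
    ⟨_, hEx, by rw [hdeis, h]⟩
  have t3 := eis_mem_thetaPart l hy
  have t2 := hecke_mem_thetaPart r₀ t3
  have h2 := mem_map_of_hecke_sub_mem hp d l (hd l hl) hl _ hθl t2
    (by rw [← eis_apply]; exact h1)
  have h4 := mem_map_of_hecke_sub_mem hp d r₀ (hd r₀ hr₀) hr₀ 0 (by simpa using hθr) t3
    (by simpa using h2)
  have h5 := mem_map_of_hecke_sub_mem hp d l (hd l hl) hl _ hθl hy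
    (by rw [← eis_apply]; exact h4)
  obtain ⟨x', hx', e⟩ := h5
  exact ⟨x', hx', e⟩

end Image

/-! ### the descent of invariant classes in the `θ`-part -/

section Car

variable {N q p : ℕ} [NeZero N] [NeZero q] {S : Set ℕ} {θ : ℕ → ℤ}

theorem dvd_sub_one_of_modEq {l M : ℕ} (h : l ≡ 1 [MOD M]) : (M : ℤ) ∣ (l : ℤ) - 1 := by
  have := Nat.modEq_iff_dvd.mp h.symm
  simpa using this

/-- **[CAR], case `A`** : `G = ⟨t, w_{q²}⟩`, `q ∈ {2, 3}`, `q ∤ N`. -/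
theorem car_A_of_ops (hp : p.Prime) (hp2 : p ≠ 2) (hq : q.Prime) (hqN : ¬ q ∣ N) (h1 : Sq1 q)
    (hAP : NonEisAP p S θ) (hS : ∀ r : ℕ, r.Prime → r ∉ S → ¬ r ∣ N * q * q * p)
    (hr : ∃ r : Nat.Primes, (r : ℕ) ∉ S ∧ (r : ℕ) % 3 = 2 ∧ ¬ (p : ℤ) ∣ θ r)
    (Q : ℕ) [NeZero Q] (hQ : Q = q * q) (a b : ℤ) (h : (Q : ℤ) * a - N * b = 1)
    (at' aw : JZero (N * q * q) → JZero (N * q * q))
    (hat : ∀ m, KumConj (N * q * q) m (tQ q 1) at')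
    (haw : ∀ m, KumConj (N * q * q) m (wQ N Q a b h) aw)
    {y : JZero (N * q * q)} (hy : y ∈ thetaPart (N * q * q) p S θ) (ht : at' y = y)
    (hw : aw y = y) : ∃ x' ∈ thetaPart N p S θ, pullA (N * q) q (pullB N q x') = y := by
  subst hQ
  obtain ⟨n, hn⟩ := hy.1
  have : NeZero (p ^ n) := ⟨pow_ne_zero _ hp.ne_zero⟩
  have hm : Odd (p ^ n) := (hp.odd_of_ne_two hp2).pow
  obtain ⟨P, hP⟩ := exists_KP_of_torsion hn
  have ht' := mem_stab_of_fixed (hat _) (tQ_mem_nrmGrp hq.ne_zero h1 1) hP ht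
  have hw' := mem_stab_of_fixed (haw _)
    (by rw [mul_assoc]; exact wQ_mem_nrmGrp N (q * q) a b h) hP hw
  have hinv := hinv_of_t_w hq hqN hP.isPot ht' hw'
  obtain ⟨l, hl1, hlS, hθl⟩ := hAP (N * q * q) (NeZero.pos _)
  have hl1' := dvd_sub_one_of_modEq hl1
  have hlL : ¬ (l : ℕ) ∣ N * q * q := car_not_dvd_of_dvd_sub_one hl1' dvd_rfl
  obtain ⟨r, hrS, hr3, hθr⟩ := hr
  have hrL : ¬ (r : ℕ) ∣ N * q * q := fun hd => hS r r.2 hrS (hd.mul_right p)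
  have hrN : ¬ (r : ℕ) ∣ N := fun hd => hrL ((hd.mul_right q).mul_right q)
  obtain ⟨x, hx, hxy⟩ := car_zero_of_hinv hlL hrL (softStmt_zero hq l.2 hl1')
    (ellStmt hm r.2 hr3 hrN) hP hinv
  refine image_of_eq hp ((pullA (N * q) q).comp (pullB N q)) ?_ ?_ r l hrS hθr hlS hθl ?_ hy
    ⟨n, hx⟩ hxy
  · intro σ x
    rw [AddMonoidHom.comp_apply, AddMonoidHom.comp_apply, pullB_smul, pullA_smul]
  · intro r' hr' hr'S
    exact ⟨fun hd => hS r' hr' hr'S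
      (hd.trans (Nat.mul_dvd_mul_right ((Dvd.intro _ rfl).mul_right q) p)), hS r' hr' hr'S⟩
  · rintro x ⟨k, hk⟩ h0
    have : NeZero (p ^ k) := ⟨pow_ne_zero _ hp.ne_zero⟩
    exact eis_eq_zero_of_pullA_pullB (m := p ^ k) hl1' hk h0

/-- **[CAR], case `C`** : `G = ⟨t⟩`, `q ∈ {2, 3}`. -/
theorem car_C_of_ops (hp : p.Prime) (hp2 : p ≠ 2) (hq : q.Prime) (h1 : Sq1 q)
    (hAP : NonEisAP p S θ) (hS : ∀ r : ℕ, r.Prime → r ∉ S → ¬ r ∣ N * q * q * p)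
    (hr : ∃ r : Nat.Primes, (r : ℕ) ∉ S ∧ (r : ℕ) % 3 = 2 ∧ ¬ (p : ℤ) ∣ θ r)
    (at' : JZero (N * q * q) → JZero (N * q * q))
    (hat : ∀ m, KumConj (N * q * q) m (tQ q 1) at')
    {y : JZero (N * q * q)} (hy : y ∈ thetaPart (N * q * q) p S θ) (ht : at' y = y) :
    ∃ x' ∈ thetaPart (N * q) p S θ, pullB (N * q) q x' = y := by
  obtain ⟨n, hn⟩ := hy.1
  have : NeZero (p ^ n) := ⟨pow_ne_zero _ hp.ne_zero⟩
  have hm : Odd (p ^ n) := (hp.odd_of_ne_two hp2).pow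
  obtain ⟨P, hP⟩ := exists_KP_of_torsion hn
  have ht' := mem_stab_of_fixed (hat _) (tQ_mem_nrmGrp hq.ne_zero h1 1) hP ht
  have hinv := hinv_of_t hq hP.isPot ht'
  obtain ⟨l, hl1, hlS, hθl⟩ := hAP (N * q * q) (NeZero.pos _)
  have hl1' := dvd_sub_one_of_modEq hl1
  have hlL : ¬ (l : ℕ) ∣ N * q * q := car_not_dvd_of_dvd_sub_one hl1' dvd_rfl
  obtain ⟨r, hrS, hr3, hθr⟩ := hr
  have hrL : ¬ (r : ℕ) ∣ N * q * q := fun hd => hS r r.2 hrS (hd.mul_right p)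
  have hrN : ¬ (r : ℕ) ∣ N * q := fun hd => hrL (hd.mul_right q)
  obtain ⟨x, hx, hxy⟩ := car_one_of_hinv hlL hrL (softStmt_one hq l.2 hl1')
    (ellStmt hm r.2 hr3 hrN) hP hinv
  refine image_of_eq hp (pullB (N * q) q) (fun σ x => pullB_smul (N * q) q σ x) ?_ r l hrS hθr hlS
    hθl ?_ hy ⟨n, hx⟩ hxy
  · intro r' hr' hr'S
    exact ⟨fun hd => hS r' hr' hr'S
      (hd.trans (Nat.mul_dvd_mul_right (Dvd.intro _ rfl) p)), hS r' hr' hr'S⟩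
  · rintro x ⟨k, hk⟩ h0
    have : NeZero (p ^ k) := ⟨pow_ne_zero _ hp.ne_zero⟩
    exact eis_eq_zero_of_pullB (m := p ^ k) hl1' hk h0

end Car

/-! ### `q = 3` : (E2) -/

section Three

variable {M p : ℕ} [NeZero M] {S : Set ℕ} {θ : ℕ → ℤ}

/-- **(E2), `3 ∤ M`**, exact image. -/
theorem e2_A_image (hp : p.Prime) (hp2 : p ≠ 2) (h3M : ¬ 3 ∣ M) (hAP : NonEisAP p S θ)
    (hS : ∀ r : ℕ, r.Prime → r ∉ S → ¬ r ∣ M * 3 * 3 * p)
    (hr : ∃ r : Nat.Primes, (r : ℕ) ∉ S ∧ (r : ℕ) % 3 = 2 ∧ ¬ (p : ℤ) ∣ θ r)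
    (h9 : 9 ∣ M * 3 * 3) (hL : M * 3 * 3 = M * 9) (a b : ℤ) (h : ((9 : ℕ) : ℤ) * a - M * b = 1)
    {y : JZero (M * 3 * 3)} (hy : y ∈ thetaPart (M * 3 * 3) p S θ)
    (ht : RIB.jPull (tHom (M * 3 * 3) h9 omega3 omega3_pow) y = y)
    (hw : RIB.jPull (wHom (M * 3 * 3) M 9 hL a b h) y = y) :
    ∃ x' ∈ thetaPart M p S θ, pullA (M * 3) 3 (pullB M 3 x') = y :=
  car_A_of_ops hp hp2 Nat.prime_three h3M sq1_three hAP hS hr 9 rfl a b h _ _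
    (fun _ => kumConj_tHom h9) (fun _ => kumConj_wHom hL a b h) hy ht hw

/-- **(E2), level `M * 3 * 3 → M * 3`**, exact image. -/
theorem e2_B_image (hp : p.Prime) (hp2 : p ≠ 2) (hAP : NonEisAP p S θ)
    (hS : ∀ r : ℕ, r.Prime → r ∉ S → ¬ r ∣ M * 3 * 3 * p)
    (hr : ∃ r : Nat.Primes, (r : ℕ) ∉ S ∧ (r : ℕ) % 3 = 2 ∧ ¬ (p : ℤ) ∣ θ r)
    (h9 : 9 ∣ M * 3 * 3) {y : JZero (M * 3 * 3)} (hy : y ∈ thetaPart (M * 3 * 3) p S θ)
    (ht : RIB.jPull (tHom (M * 3 * 3) h9 omega3 omega3_pow) y = y) :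
    ∃ x' ∈ thetaPart (M * 3) p S θ, pullB (M * 3) 3 x' = y :=
  car_C_of_ops hp hp2 Nat.prime_three sq1_three hAP hS hr _ (fun _ => kumConj_tHom h9) hy ht

end Three

/-! ### the forms consumed by (E1) (`NRStmt`, field (F6)) -/

section Final

variable {p : ℕ} [Fact p.Prime] {T : Finset ℕ} {θ : ℕ → ℤ}
  {rbar0 : GQ →* Matrix (Fin 2) (Fin 2) (ZMod p)}

theorem exists_r_e2 (C : MCtx p T θ rbar0) (hp35 : p = 3 ∨ p = 5) :
    ∃ r : Nat.Primes, (r : ℕ) ∉ (↑T : Set ℕ) ∧ (r : ℕ) % 3 = 2 ∧ ¬ (p : ℤ) ∣ θ r := by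
  obtain ⟨r, h1, h2, -, h4, h5⟩ := C.exists_prime_two_mod_three_all hp35 ∅
  exact ⟨⟨r, h1⟩, by simpa using h2, h4, h5⟩

theorem not_dvd_level_e2 {M : ℕ} (h3T : 3 ∈ T) (hT : ∀ r : ℕ, r.Prime → r ∣ M * 2 * p → r ∈ T) :
    ∀ r : ℕ, r.Prime → r ∉ (↑T : Set ℕ) → ¬ r ∣ M * 3 * 3 * p := by
  intro r hr hrT hd
  apply hrT
  have h3 : r ∣ 3 → r ∈ (↑T : Set ℕ) := fun h => by
    rw [(Nat.prime_dvd_prime_iff_eq hr Nat.prime_three).1 h]; exact h3T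
  rcases (Nat.Prime.dvd_mul hr).1 hd with h | h
  · rcases (Nat.Prime.dvd_mul hr).1 h with h | h
    · rcases (Nat.Prime.dvd_mul hr).1 h with h | h
      · exact hT r hr ((h.mul_right 2).mul_right p)
      · exact h3 h
    · exact h3 h
  · exact hT r hr (h.mul_left _)

/-- **(E2), case `3 ∤ M`** : `W(M) = 0` ⟹ `W(9 M)^{⟨t, w₉⟩} = 0`. -/
theorem e2_A (hp35 : p = 3 ∨ p = 5) (C : MCtx p T θ rbar0) (h3T : 3 ∈ T) {M : ℕ} [NeZero M]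
    (h3M : ¬ 3 ∣ M) (hT : ∀ r : ℕ, r.Prime → r ∣ M * 2 * p → r ∈ T)
    (hW : WS M p (↑T : Set ℕ) θ = ⊥) (h9 : 9 ∣ M * 3 * 3) (hL : M * 3 * 3 = M * 9) (a b : ℤ)
    (h : ((9 : ℕ) : ℤ) * a - M * b = 1) (y : JZero (M * 3 * 3))
    (hy : y ∈ WS (M * 3 * 3) p (↑T : Set ℕ) θ)
    (ht : RIB.jPull (tHom (M * 3 * 3) h9 omega3 omega3_pow) y = y)
    (hw : RIB.jPull (wHom (M * 3 * 3) M 9 hL a b h) y = y) : y = 0 := by
  obtain ⟨x', hx', e⟩ := e2_A_image (Fact.out : p.Prime) C.hp2 h3M (C.nonEis T)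
    (not_dvd_level_e2 h3T hT) (exists_r_e2 C hp35) h9 hL a b h hy.1 ht hw
  rw [thetaPart_eq_bot_of_WS_eq_bot hW, AddSubgroup.mem_bot] at hx'
  rw [← e, hx', map_zero, map_zero]

/-- **(E2), case `3 ∣ M`**, `M = M' * 3` : `W(M) = 0` ⟹ `W(3 M)^{⟨t⟩} = 0`. -/
theorem e2_B (hp35 : p = 3 ∨ p = 5) (C : MCtx p T θ rbar0) (h3T : 3 ∈ T) {M' : ℕ} [NeZero M']
    (hT : ∀ r : ℕ, r.Prime → r ∣ M' * 3 * 2 * p → r ∈ T)
    (hW : WS (M' * 3) p (↑T : Set ℕ) θ = ⊥) (h9 : 9 ∣ M' * 3 * 3) (y : JZero (M' * 3 * 3))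
    (hy : y ∈ WS (M' * 3 * 3) p (↑T : Set ℕ) θ)
    (ht : RIB.jPull (tHom (M' * 3 * 3) h9 omega3 omega3_pow) y = y) : y = 0 := by
  have hT' : ∀ r : ℕ, r.Prime → r ∣ M' * 2 * p → r ∈ T := fun r hr hd =>
    hT r hr (hd.trans ⟨3, by ring⟩)
  obtain ⟨x', hx', e⟩ := e2_B_image (Fact.out : p.Prime) C.hp2 (C.nonEis T)
    (not_dvd_level_e2 h3T hT') (exists_r_e2 C hp35) h9 hy.1 ht
  rw [thetaPart_eq_bot_of_WS_eq_bot hW, AddSubgroup.mem_bot] at hx'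
  rw [← e, hx', map_zero]

/-- the same with a free level `M`, `3 ∣ M`. -/
theorem e2_B' (hp35 : p = 3 ∨ p = 5) (C : MCtx p T θ rbar0) (h3T : 3 ∈ T) {M : ℕ} [NeZero M]
    (h3M : 3 ∣ M) (hT : ∀ r : ℕ, r.Prime → r ∣ M * 2 * p → r ∈ T)
    (hW : WS M p (↑T : Set ℕ) θ = ⊥) (h9 : 9 ∣ M * 3) (y : JZero (M * 3))
    (hy : y ∈ WS (M * 3) p (↑T : Set ℕ) θ)
    (ht : RIB.jPull (tHom (M * 3) h9 omega3 omega3_pow) y = y) : y = 0 := by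
  obtain ⟨M', hM'⟩ : ∃ M', M = M' * 3 := by
    obtain ⟨M', hM'⟩ := h3M
    exact ⟨M', by rw [hM', mul_comm]⟩
  subst hM'
  have : NeZero M' := ⟨fun h0 => NeZero.ne (M' * 3) (by rw [h0, zero_mul])⟩
  exact e2_B hp35 C h3T hT hW h9 y hy ht

end Final

end

end Fermat.Agent.ML.At2
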