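import Fermat.Agent.S41.Bd
import Fermat.Agent.GAL.Sup.Defs

/-!
# ML / AT-2 / (E2) : the elliptic defect is void when `m` is prime to `6`   (the branch `p = 5`)

`φ : Γ₀(N) → ℤ/m` parabolic (`φ ∈ S41.HH (ZMod m) N`), `m` prime to `6`.  Then `φ` is a `GAL.GoodHom`: an element of trace `0, ± 1` has
order dividing `12`.  So no operator `T_r` (`r ≡ 2 mod 3`) and no auxiliary prime `r` is needed for `p = 5`.
-/

set_option autoImplicit false

open Matrix Matrix.SpecialLinearGroup CongruenceSubgroup ModularCurve.Period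
open scoped MatrixGroups

namespace Fermat.Agent.ML.At2

/-- Cayley-Hamilton for `SL(2,ℤ)`. -/
theorem ell5_sq (g : SL(2, ℤ)) :
    (g : Matrix (Fin 2) (Fin 2) ℤ) * (g : Matrix (Fin 2) (Fin 2) ℤ) =
      (g 0 0 + g 1 1) • (g : Matrix (Fin 2) (Fin 2) ℤ) - 1 := by
  have hdet := Matrix.det_fin_two (g : Matrix (Fin 2) (Fin 2) ℤ)
  rw [g.2] at hdet
  ext i j
  rw [Matrix.mul_apply, Fin.sum_univ_two, Matrix.sub_apply, Matrix.smul_apply, smul_eq_mul]
  fin_cases i <;> fin_cases j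
  · show g 0 0 * g 0 0 + g 0 1 * g 1 0 = (g 0 0 + g 1 1) * g 0 0 - 1
    linear_combination hdet
  · show g 0 0 * g 0 1 + g 0 1 * g 1 1 = (g 0 0 + g 1 1) * g 0 1 - 0
    ring
  · show g 1 0 * g 0 0 + g 1 1 * g 1 0 = (g 0 0 + g 1 1) * g 1 0 - 0
    ring
  · show g 1 0 * g 0 1 + g 1 1 * g 1 1 = (g 0 0 + g 1 1) * g 1 1 - 1
    linear_combination hdet

/-- an element of `SL(2,ℤ)` of trace `0`, `1` or `-1` has order dividing `12`. -/
theorem ell5_pow_twelve (g : SL(2, ℤ)) (h : |g 0 0 + g 1 1| ≤ 1) : g ^ 12 = 1 := by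
  have h2 := ell5_sq g
  set M : Matrix (Fin 2) (Fin 2) ℤ := (g : Matrix (Fin 2) (Fin 2) ℤ) with hM
  set t : ℤ := g 0 0 + g 1 1 with ht
  have ht3 : t = 0 ∨ t = 1 ∨ t = -1 := by
    rw [abs_le] at h
    omega
  have key : M ^ 12 = 1 := by
    rcases ht3 with h0 | h0 | h0
    · rw [h0, zero_smul, zero_sub] at h2
      have : M ^ 12 = (M * M) ^ 6 := by rw [← pow_two, ← pow_mul]
      rw [this, h2]
      exact Even.neg_one_pow (by decide)
    · rw [h0, one_smul] at h2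
      have h3 : M ^ 3 = -1 := by
        have : M ^ 3 = M * (M * M) := by rw [pow_succ, pow_two, mul_assoc]
        rw [this, h2, mul_sub, mul_one, h2]
        abel
      have : M ^ 12 = (M ^ 3) ^ 4 := by rw [← pow_mul]
      rw [this, h3]
      exact Even.neg_one_pow (by decide)
    · rw [h0, neg_one_smul] at h2
      have h3 : M ^ 3 = 1 := by
        have : M ^ 3 = M * (M * M) := by rw [pow_succ, pow_two, mul_assoc]
        rw [this, h2, mul_sub, mul_one, mul_neg, h2]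
        abel
      have : M ^ 12 = (M ^ 3) ^ 4 := by rw [← pow_mul]
      rw [this, h3, one_pow]
  apply Subtype.ext
  rw [Matrix.SpecialLinearGroup.coe_pow]
  exact key

/-- **the elliptic defect is void for `m` prime to `6`.** -/
theorem mem_goodHom_of_coprime_six {N m : ℕ} (hm : Nat.Coprime m 6)
    (φ : S41.HH (ZMod m) N) :
    (φ : Additive (Gamma0 N) →+ ZMod m) ∈ GAL.GoodHom N m := by
  intro γ hγ
  have hγ' : |(γ : SL(2, ℤ)) 0 0 + (γ : SL(2, ℤ)) 1 1| ≤ 2 := hγ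
  by_cases h1 : |(γ : SL(2, ℤ)) 0 0 + (γ : SL(2, ℤ)) 1 1| ≤ 1
  · have h12 : γ ^ 12 = 1 := Subtype.ext (by
      rw [Subgroup.coe_pow]; exact ell5_pow_twelve _ h1)
    have e : (12 : ℕ) • (φ : Additive (Gamma0 N) →+ ZMod m) (Additive.ofMul γ) = 0 := by
      rw [← map_nsmul, ← ofMul_pow, h12, ofMul_one, map_zero]
    rw [nsmul_eq_mul] at e
    have hu : IsUnit ((12 : ℕ) : ZMod m) := by
      rw [ZMod.isUnit_iff_coprime]
      have h2 : Nat.Coprime 2 m := (Nat.Coprime.coprime_dvd_right (by norm_num) hm).symm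
      have h6 : Nat.Coprime 6 m := hm.symm
      exact Nat.Coprime.mul_left h2 h6
    exact (hu.mul_right_eq_zero).1 e
  · apply S41.isParabolicHom_of_mem_H φ.2 γ
    rw [Matrix.trace_fin_two]
    have h2 : |(γ : SL(2, ℤ)) 0 0 + (γ : SL(2, ℤ)) 1 1| = 2 := by omega
    have : |(γ : SL(2, ℤ)) 0 0 + (γ : SL(2, ℤ)) 1 1| ^ 2 = 4 := by rw [h2]; norm_num
    rwa [sq_abs] at this

end Fermat.Agent.ML.At2
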