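import Fermat.Agent.ML.At2.Car.Bridge4P
import Fermat.Agent.ML.At2.Car.Ell
import Fermat.Agent.ML.At2.Ctrl.Odd

/-!
# ML / AT-2 / **[INV4]** : `Inv4 N p S θ` is a theorem (`N` odd, `p` odd)

`w ∈ W(4N)` with `δ₀^* δ₀_* w = δ₁^* δ₁_* w = 2 w`.
* `exists_pot_of_pull_push` : `w` is the Kummer class of `bd P`, `P` satisfying the hypotheses of `car_soft_A`;
* `car_soft_A` : `G := (DD l P) ∘ δ⁻¹` is a potential for `Γ₀(N)` (`l ≡ 1 mod 4N`);
* `exists_kumRel_TH` : `T_r (bd G)` is the character of a point `x ∈ J₀(N)[p]` (`r ≡ 2 mod 3`);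
* `d₁^* x` has the potential `(TT r G) ∘ δ = TT r (DD l P)`, so `d₁^* x = T_r (T_l - l - 1) w`;
* `eis l' (eis l₁ x)` lies in the `θ`-part (the kernel of `d₁^*` on `p`-torsion is Eisenstein);
* the four operators are invertible on `W(4N)` and preserve `d₁^* (θ`-part`)`.
-/

set_option autoImplicit false
set_option linter.unusedSectionVars false

open AlgebraicCurve ModularCurve CongruenceSubgroup ModularForm OnePoint
open scoped MatrixGroups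
open Matrix.SpecialLinearGroup (mapGL)

namespace Fermat.Agent.ML.At2

open Fermat.Agent.GAL Fermat.Agent.GAL.PC Fermat.Agent.RIB Fermat.Agent.S41 Fermat.Agent.S41.Soft

noncomputable section

/-! ### abstract: removing an invertible operator -/

/-- `g w ∈ I`, `I` stable under `g`, `(g - b)^k w = 0`, `b` prime to `p`, `p w = 0` `⟹` `w ∈ I`. -/
theorem mem_of_op_mem {X : Type*} [AddCommGroup X] (g : Module.End ℤ X) (I : AddSubgroup X)
    (hI : ∀ x ∈ I, g x ∈ I) {p : ℕ} {b : ℤ} (hb : IsCoprime b (p : ℤ)) :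
    ∀ (k : ℕ) (w : X), p • w = 0 → ((g - (b : Module.End ℤ X)) ^ k) w = 0 → g w ∈ I → w ∈ I := by
  intro k
  induction k with
  | zero =>
    intro w _ h0 _
    rw [pow_zero, Module.End.one_apply] at h0
    rw [h0]
    exact I.zero_mem
  | succ k ih =>
    intro w hp h0 hg
    have e : (g - (b : Module.End ℤ X)) w = g w - b • w := by
      rw [LinearMap.sub_apply, Module.End.intCast_apply]
    have h1 : g w - b • w ∈ I := by
      refine ih _ ?_ ?_ ?_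
      · rw [← e, ← map_nsmul, hp, map_zero]
      · rw [← e, ← Module.End.mul_apply, ← pow_succ, h0]
      · rw [map_sub, map_zsmul]
        exact I.sub_mem (hI _ hg) (I.zsmul_mem hg _)
    have h2 : b • w ∈ I := by
      have := I.sub_mem hg h1
      rwa [sub_sub_cancel] at this
    obtain ⟨u, v, huv⟩ := hb
    have hp' : (p : ℤ) • w = 0 := by rw [natCast_zsmul, hp]
    have : w = u • b • w := by
      calc w = (1 : ℤ) • w := (one_smul _ _).symm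
        _ = (u * b + v * (p : ℤ)) • w := by rw [huv]
        _ = u • b • w := by rw [add_smul, mul_smul, mul_smul, hp', smul_zero, add_zero]
    rw [this]
    exact I.zsmul_mem h2 _

section Level

variable {L p : ℕ} [NeZero L] {S : Set ℕ} {θ : ℕ → ℤ}

theorem eis_sub_eq_hk (l : Nat.Primes) :
    eis L l - ((θ l - (((l : ℕ) : ℤ) + 1) : ℤ) : Module.End ℤ (JZero L)) = hk L θ l := by
  rw [eis, hk]
  push_cast
  abel

/-- remove `T_r`, `θ r` prime to `p`. -/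
theorem mem_of_hecke_mem (hp : p.Prime) (I : AddSubgroup (JZero L)) (r : Nat.Primes)
    (hI : ∀ x ∈ I, heckeOperatorBar L r x ∈ I) (hrS : (r : ℕ) ∉ S) (hr : ¬ (p : ℤ) ∣ θ r)
    {w : JZero L} (hw : w ∈ WS L p S θ) (h : heckeOperatorBar L r w ∈ I) : w ∈ I := by
  obtain ⟨k, hk'⟩ := hw.1.2 r hrS
  exact mem_of_op_mem (heckeOperatorBar L r) I hI
    ((Nat.prime_iff_prime_int.mp hp).coprime_iff_not_dvd.mpr hr).symm k w hw.2 hk' h

/-- remove `T_l - l - 1`, `θ l - l - 1` prime to `p`. -/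
theorem mem_of_eis_mem (hp : p.Prime) (I : AddSubgroup (JZero L)) (l : Nat.Primes)
    (hI : ∀ x ∈ I, heckeOperatorBar L l x ∈ I) (hlS : (l : ℕ) ∉ S)
    (hl : ¬ (p : ℤ) ∣ θ l - (((l : ℕ) : ℤ) + 1))
    {w : JZero L} (hw : w ∈ WS L p S θ) (h : eis L l w ∈ I) : w ∈ I := by
  obtain ⟨k, hk'⟩ := hw.1.2 l hlS
  refine mem_of_op_mem (eis L l) I (fun x hx => ?_)
    ((Nat.prime_iff_prime_int.mp hp).coprime_iff_not_dvd.mpr hl).symm k w hw.2
    (by rw [eis_sub_eq_hk]; exact hk') h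
  rw [eis_apply]
  exact I.sub_mem (hI x hx) (I.zsmul_mem hx _)

theorem eis_mem_WS (l : Nat.Primes) {w : JZero L} (hw : w ∈ WS L p S θ) :
    eis L l w ∈ WS L p S θ :=
  ⟨eis_mem_thetaPart l hw.1, by rw [← map_nsmul, hw.2, map_zero]⟩

theorem eis_comm_hk_pow (l s : Nat.Primes) (k : ℕ) (x : JZero L) :
    (hk L θ s ^ k) (eis L l x) = eis L l ((hk L θ s ^ k) x) := by
  have hT : Commute (heckeOperatorBar L s) (heckeOperatorBar L l) :=
    HeckeComm.heckeOperatorsCommuteBar L s l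
  have hc : Commute (hk L θ s) (eis L l) := by
    unfold hk eis
    exact (hT.sub_right (Int.commute_cast _ _)).sub_left (Int.cast_commute _ _)
  exact congrArg (fun f : Module.End ℤ (JZero L) => f x) (hc.pow_left k).eq

end Level

variable {N p : ℕ} [NeZero N]

/-! ### the Kummer computation -/

/-- **[CAR2]** : `T_r (T_l - l - 1) w` comes from the level `N`. -/
theorem exists_iot_eq_hecke_eis [NeZero p] (hpodd : Odd p) {w : JZero (N * 2 * 2)} (hw : p • w = 0)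
    (hA : EA N w = 2 • w) (hB : EB N w = 2 • w) (l r : Nat.Primes)
    (hl1 : ((N * 2 * 2 : ℕ) : ℤ) ∣ ((l : ℕ) : ℤ) - 1) (hr3 : (r : ℕ) % 3 = 2)
    (hrN : ¬ (r : ℕ) ∣ N * 2 * 2) :
    ∃ x : JZero N, p • x = 0 ∧
      iot N 2 1 x = heckeOperatorBar (N * 2 * 2) r (eis (N * 2 * 2) l w) := by
  have : NeZero (r : ℕ) := ⟨r.2.ne_zero⟩
  have hrN1 : ¬ (r : ℕ) ∣ N := fun h => hrN ((h.mul_right 2).mul_right 2)
  have hr2 : Nat.Coprime 2 (r : ℕ) := by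
    rw [Nat.coprime_primes Nat.prime_two r.2]
    intro h
    exact hrN (h ▸ Dvd.intro_left _ rfl)
  have hlN : ¬ (l : ℕ) ∣ N * 2 * 2 := by
    intro h
    have h1 : ((l : ℕ) : ℤ) ∣ ((N * 2 * 2 : ℕ) : ℤ) := by exact_mod_cast h
    have h2 : ((l : ℕ) : ℤ) ∣ 1 := by
      have := dvd_sub (dvd_refl ((l : ℕ) : ℤ)) (h1.trans hl1)
      simpa using this
    have h3 : (l : ℕ) ∣ 1 := by exact_mod_cast h2
    exact l.2.one_lt.ne' (Nat.dvd_one.mp h3)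
  obtain ⟨P, hK, hg, htr⟩ := exists_pot_of_pull_push (N := N) (m := p) (q := 2) sq1_two
    (Nat.coprime_two_left.2 hpodd) hw hA hB
  have hPot : IsPot (Gamma0 (N * 2 * 2)) P.1 := mem_Symb_iff_soft.1 P.2
  have hG : IsPot (Gamma0 N) (fun s => DD (l : ℕ) P.1 ((dgQ 2)⁻¹ • s)) :=
    car_soft_A Nat.prime_two l.2 hl1 hPot htr hg
  set G : Symb (Gamma0 N) (ZMod p) := ⟨_, mem_Symb_iff_soft.2 hG⟩ with hGdef
  obtain ⟨x, hx, hkx⟩ := exists_kumRel_TH hpodd r.2 hr3 hrN1 (bd (Gamma0 N) (ZMod p) G)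
  refine ⟨x, hx, ?_⟩
  -- the character of `d₁^* x`
  have hopN := isOp_T (A := ZMod p) r.2 hrN1
  rw [KumRel, TH, opH_bd hopN] at hkx
  have hs1 : (fun s => opT (ZMod p) (r : ℕ) G.1 (dgQ 2 • s)) ∈ Symb (Gamma0 (N * 2)) (ZMod p) :=
    comp_dgQ_mem_Symb 2 (hopN.symb G.1 G.2)
  have k1 := isKummer_pullB_bd 2 _ hkx hs1
  have hs2 : (fun s => opT (ZMod p) (r : ℕ) G.1 (dgQ 2 • s)) ∈ Symb (Gamma0 (N * 2 * 2)) (ZMod p) :=
    (isOp_res (S41.Gamma0_mul_le (N * 2) 2)).symb _ hs1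
  have k2 := isKummer_pullA_bd 2 _ k1 hs2
  -- the character of `T_r (T_l - l - 1) w`
  have k3 := isKummer_eis l hlN _ hK
  obtain ⟨hu', e1⟩ := TH_sub_bd_gen l.2 hlN P
  rw [e1] at k3
  have hop4 := isOp_T (A := ZMod p) r.2 hrN
  have k4 := k3.hecke r hrN (isTransfer_TH r.2 hrN _).chiOf
  rw [TH, opH_bd hop4] at k4
  -- the two potentials agree
  have hfun : (fun s => opT (ZMod p) (r : ℕ) G.1 (dgQ 2 • s))
      = opT (ZMod p) (r : ℕ) (DD (l : ℕ) P.1) := by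
    funext s
    rw [opT_eq_TT, opT_eq_TT, ← TT_comp_dgQ r.2.ne_zero two_ne_zero hr2 G.1 hG.hT s]
    congr 1
    funext t
    show DD (l : ℕ) P.1 ((dgQ 2)⁻¹ • dgQ 2 • t) = _
    rw [inv_smul_smul]
  have hsub : (⟨fun s => opT (ZMod p) (r : ℕ) G.1 (dgQ 2 • s), hs2⟩ :
      Symb (Gamma0 (N * 2 * 2)) (ZMod p)) = ⟨opT (ZMod p) (r : ℕ) (DD (l : ℕ) P.1),
        hop4.symb _ hu'⟩ := Subtype.ext hfun
  rw [hsub] at k2
  rw [iot_one]
  exact k2.unique k4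

/-! ### the kernel of `d₁^*` on `p`-torsion is Eisenstein -/

theorem exists_eis_eis_of_iot (hp : p.Prime) (hp2 : p ≠ 2) (hN : ¬ 2 ∣ N) :
    ∃ M₀ : ℕ, 0 < M₀ ∧ ∀ l l₁ : Nat.Primes, (l : ℕ) ≡ 1 [MOD M₀] → (l : ℕ) ≠ 2 →
      (l₁ : ℕ) ≡ 1 [MOD N * 2] → ∀ z : JZero N, p • z = 0 → iot N 2 1 z = 0 →
        eis N l (eis N l₁ z) = 0 := by
  obtain ⟨M₀, hM₀, H⟩ := iharaTors (N := N) Nat.prime_two hN
  refine ⟨M₀, hM₀, fun l l₁ hl hl2 hl₁ z hz h0 => ?_⟩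
  rw [iot_one] at h0
  have h1 : 2 • pullB N 2 z = 0 := by
    rw [← pushA_pullA_of_dvd (N * 2) 2 Nat.prime_two (Dvd.intro_left N rfl), h0, map_zero]
  have h2 : pullB N 2 z = 0 := by
    refine eq_zero_of_nsmul_eq_zero (p := p) ((Nat.coprime_primes Nat.prime_two hp).2 hp2.symm)
      ?_ h1
    exact ⟨1, by rw [pow_one, ← map_nsmul, hz, map_zero]⟩
  exact (H l l₁ hl hl2 hl₁ p hp.pos 0 z (smul_zero _) hz (by rw [map_zero, zero_add, h2])).2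

/-! ### the theorem -/

/-- **[INV4]** -/
theorem inv4 (hp : p.Prime) (hp2 : p ≠ 2) (hN : ¬ 2 ∣ N) {S : Set ℕ} {θ : ℕ → ℤ}
    (hAP : NonEisAP p S θ) (h2S : 2 ∈ S)
    (hS : ∀ r : ℕ, r.Prime → r ∉ S → ¬ r ∣ N * 2 * 2 * p)
    (hr : ∃ r : Nat.Primes, (r : ℕ) ∉ S ∧ (r : ℕ) % 3 = 2 ∧ ¬ (p : ℤ) ∣ θ r) :
    Inv4 N p S θ := by
  have : NeZero p := ⟨hp.ne_zero⟩
  have hpodd : Odd p := hp.odd_of_ne_two hp2
  intro w hw hA hB
  obtain ⟨r, hrS, hr3, hrθ⟩ := hr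
  obtain ⟨l, hl1, hlS, hlθ⟩ := hAP (N * 2 * 2) (NeZero.pos _)
  obtain ⟨M₀, hM₀, Hker⟩ := exists_eis_eis_of_iot (N := N) hp hp2 hN
  obtain ⟨l', hl'1, hl'S, hl'θ⟩ := hAP M₀ hM₀
  obtain ⟨l₁, hl₁1, hl₁S, hl₁θ⟩ := hAP (N * 2) (NeZero.pos _)
  have hnd : ∀ s : Nat.Primes, (s : ℕ) ∉ S → ¬ (s : ℕ) ∣ N * 2 * 2 * p := fun s hs => hS s s.2 hs
  have hl1' : ((N * 2 * 2 : ℕ) : ℤ) ∣ ((l : ℕ) : ℤ) - 1 :=
    (Nat.modEq_iff_dvd.1 hl1.symm)
  obtain ⟨x, hx, hxw⟩ := exists_iot_eq_hecke_eis hpodd hw.2 hA hB l r hl1' hr3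
    (fun h => hnd r hrS (h.mul_right p))
  have hxp : x ∈ ptors (JZero N) p := ⟨1, by rw [pow_one, hx]⟩
  -- `w₂ := T_r (T_l - l - 1) w ∈ W(4N)`
  have hw1 : eis (N * 2 * 2) l w ∈ WS (N * 2 * 2) p S θ := eis_mem_WS l hw
  have hw2 : heckeOperatorBar (N * 2 * 2) r (eis (N * 2 * 2) l w) ∈ WS (N * 2 * 2) p S θ :=
    hecke_mem_WS r hw1
  have hw3 := eis_mem_WS l₁ hw2
  -- `iot` commutes with the operators on `p`-power torsion
  have hptors : ∀ (f : Module.End ℤ (JZero N)) (y : JZero N), y ∈ ptors (JZero N) p →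
      f y ∈ ptors (JZero N) p := fun f y hy => map_mem_ptors f.toAddMonoidHom hy
  have iot_eis : ∀ s : Nat.Primes, (s : ℕ) ∉ S → ∀ y ∈ ptors (JZero N) p,
      iot N 2 1 (eis N s y) = eis (N * 2 * 2) s (iot N 2 1 y) := by
    intro s hs y hy
    rw [eis_apply, eis_apply, map_sub, map_zsmul, iot_hecke 1 s (hnd s hs) y hy]
  have iot_hk : ∀ s : Nat.Primes, (s : ℕ) ∉ S → ∀ k : ℕ, ∀ y ∈ ptors (JZero N) p,
      iot N 2 1 ((hk N θ s ^ k) y) = (hk (N * 2 * 2) θ s ^ k) (iot N 2 1 y) := by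
    intro s hs k
    induction k with
    | zero => intro y _; rfl
    | succ k ih =>
      intro y hy
      rw [pow_succ, pow_succ, Module.End.mul_apply, Module.End.mul_apply, ih _ (hptors _ y hy),
        hk_apply, hk_apply, map_sub, map_zsmul, iot_hecke 1 s (hnd s hs) y hy]
  -- `x₃ := eis l' (eis l₁ x)` lies in the `θ`-part
  have hx3 : eis N l' (eis N l₁ x) ∈ thetaPart N p S θ := by
    refine ⟨hptors _ _ (hptors _ _ hxp), fun s hs => ?_⟩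
    obtain ⟨k, hk'⟩ := hw2.1.2 s hs
    refine ⟨k, ?_⟩
    rw [eis_comm_hk_pow, eis_comm_hk_pow]
    refine Hker l' l₁ hl'1 (fun h => hl'S (h ▸ h2S)) hl₁1 _ ?_ ?_
    · rw [← map_nsmul, hx, map_zero]
    · rw [iot_hk s hs k x hxp, hxw, hk']
  -- the image of the `θ`-part
  set I : AddSubgroup (JZero (N * 2 * 2)) := (thetaPart N p S θ).map (iot N 2 1) with hI
  have hIst : ∀ s : Nat.Primes, (s : ℕ) ∉ S → ∀ y ∈ I, heckeOperatorBar (N * 2 * 2) s y ∈ I := by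
    rintro s hs _ ⟨u, hu, rfl⟩
    exact ⟨heckeOperatorBar N s u, hecke_mem_thetaPart s hu, iot_hecke 1 s (hnd s hs) u hu.1⟩
  have hfin : eis (N * 2 * 2) l' (eis (N * 2 * 2) l₁
      (heckeOperatorBar (N * 2 * 2) r (eis (N * 2 * 2) l w))) ∈ I := by
    refine ⟨_, hx3, ?_⟩
    rw [iot_eis l' hl'S _ (hptors _ _ hxp), iot_eis l₁ hl₁S _ hxp, hxw]
  have h3 := mem_of_eis_mem hp I l' (hIst l' hl'S) hl'S hl'θ hw3 hfin
  have h2 := mem_of_eis_mem hp I l₁ (hIst l₁ hl₁S) hl₁S hl₁θ hw2 h3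
  have h1 := mem_of_hecke_mem hp I r (hIst r hrS) hrS hrθ hw1 h2
  obtain ⟨u, hu, e⟩ := mem_of_eis_mem hp I l (hIst l hlS) hlS hlθ hw h1
  exact ⟨u, hu, e⟩

end

end Fermat.Agent.ML.At2
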