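import Fermat.Agent.ML.Ihara.J0
import Fermat.Agent.ML.At2.Car.Norm

/-!
# ML / AT-2 / (E2) : the dictionary `m`-torsion classes of `J₀(L)` ↔ potentials on the cusps

`KP L m P x` : `P : ℙ¹(ℚ) → ℤ/m` is a potential for `Γ₀(L)` and `x ∈ J₀(L)` is the Kummer class of the
additive character `γ ↦ P (γ s) - P s`.
-/

set_option autoImplicit false
set_option linter.unusedSectionVars false

open AlgebraicCurve ModularCurve CongruenceSubgroup OnePoint ModularForm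
open scoped MatrixGroups
open Matrix.SpecialLinearGroup (mapGL)

namespace Fermat.Agent.ML.At2

open Fermat.Agent.GAL Fermat.Agent.GAL.PC Fermat.Agent.S41 Fermat.Agent.S41.Soft Fermat.Agent.RIB
  Fermat.Agent.ML

noncomputable section

variable {L m : ℕ} [NeZero L] [NeZero m]

/-- the additive character of a potential -/
def hmP {L m : ℕ} (P : OnePoint ℚ → ZMod m) (h : IsPot (Gamma0 L) P) : HH (ZMod m) L :=
  bd (Gamma0 L) (ZMod m) ⟨P, mem_Symb_iff_soft.2 h⟩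

/-- `x` is the Kummer class of the potential `P` -/
def KP (L m : ℕ) [NeZero L] [NeZero m] (P : OnePoint ℚ → ZMod m) (x : JZero L) : Prop :=
  ∃ h : IsPot (Gamma0 L) P, IsKummer L m (chiOf (hmP P h : Additive (Gamma0 L) →+ ZMod m)) x

theorem KP.isPot {P : OnePoint ℚ → ZMod m} {x : JZero L} (h : KP L m P x) :
    IsPot (Gamma0 L) P := h.1

theorem KP.unique {P : OnePoint ℚ → ZMod m} {x x' : JZero L} (h : KP L m P x) (h' : KP L m P x') :
    x = x' := h.2.unique h'.2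

theorem KP.torsion {P : OnePoint ℚ → ZMod m} {x : JZero L} (h : KP L m P x) : m • x = 0 :=
  isKummer_torsion h.2

theorem exists_KP_of_torsion {x : JZero L} (hx : m • x = 0) : ∃ P, KP L m P x := by
  obtain ⟨c, hc⟩ := exists_goodHom_of_torsion L m x hx
  obtain ⟨u, hu⟩ := bd_surjective (⟨_, goodHom_mem_HH c⟩ : HH (ZMod m) L)
  refine ⟨u.1, mem_Symb_iff_soft.1 u.2, ?_⟩
  show IsKummer L m (chiOf (bd (Gamma0 L) (ZMod m) u : Additive (Gamma0 L) →+ ZMod m)) x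
  rw [hu]; exact hc

theorem KP.add {P Q : OnePoint ℚ → ZMod m} {x x' : JZero L} (h : KP L m P x) (h' : KP L m Q x') :
    KP L m (fun s => P s + Q s) (x + x') := by
  refine ⟨h.1.add h'.1, ?_⟩
  have := h.2.mul h'.2
  rw [← chiOf_add] at this
  have e : (hmP (fun s => P s + Q s) (h.1.add h'.1) : Additive (Gamma0 L) →+ ZMod m)
      = (hmP P h.1 : Additive (Gamma0 L) →+ ZMod m) + (hmP Q h'.1 : Additive (Gamma0 L) →+ ZMod m) := by
    have : hmP (fun s => P s + Q s) (h.1.add h'.1) = hmP P h.1 + hmP Q h'.1 := by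
      rw [hmP, hmP, hmP, ← map_add]; rfl
    rw [this]; rfl
  rw [e]; exact this

theorem KP.neg {P : OnePoint ℚ → ZMod m} {x : JZero L} (h : KP L m P x) :
    KP L m (fun s => - P s) (-x) := by
  have hp : IsPot (Gamma0 L) (fun s => - P s) := by
    intro γ hγ
    obtain ⟨c, hc⟩ := h.1 γ hγ
    exact ⟨-c, fun s => by simp only [hc, neg_add]⟩
  refine ⟨hp, ?_⟩
  have := isKummer_neg h.2
  have e : (hmP (fun s => - P s) hp : Additive (Gamma0 L) →+ ZMod m)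
      = -(hmP P h.1 : Additive (Gamma0 L) →+ ZMod m) := by
    have : hmP (fun s => - P s) hp = - hmP P h.1 := by
      rw [hmP, hmP, ← map_neg]; rfl
    rw [this]; rfl
  rw [e]; exact this

theorem KP.sub {P Q : OnePoint ℚ → ZMod m} {x x' : JZero L} (h : KP L m P x) (h' : KP L m Q x') :
    KP L m (fun s => P s - Q s) (x - x') := by
  have := h.add h'.neg
  simpa only [sub_eq_add_neg] using this

theorem KP.isInv_of_zero {P : OnePoint ℚ → ZMod m} (h : KP L m P (0 : JZero L)) :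
    IsInv (Gamma0 L) P := by
  have h1 := h.2.eq_one_of_zero
  rw [← chiOf_zero (N := L) (m := m)] at h1
  have h2 := chiOf_injective h1
  have h3 : hmP P h.1 = 0 := Subtype.ext h2
  exact (bd_eq_zero_iff _).1 h3

theorem KP_zero_of_isInv {P : OnePoint ℚ → ZMod m} (h : IsInv (Gamma0 L) P) :
    KP L m P (0 : JZero L) := by
  refine ⟨h.isPot, ?_⟩
  have h3 : hmP P h.isPot = 0 := (bd_eq_zero_iff _).2 h
  rw [h3, Submodule.coe_zero, chiOf_zero]
  exact isKummer_one_zero L m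

/-- two potentials of the same class differ by an invariant function -/
theorem KP.isInv_sub {P Q : OnePoint ℚ → ZMod m} {x : JZero L} (h : KP L m P x)
    (h' : KP L m Q x) : IsInv (Gamma0 L) (fun s => P s - Q s) := by
  have := h.sub h'
  rw [sub_self] at this
  exact this.isInv_of_zero

theorem KP.congr_inv {P Q : OnePoint ℚ → ZMod m} {x : JZero L} (h : KP L m P x)
    (h' : IsInv (Gamma0 L) (fun s => Q s - P s)) : KP L m Q x := by
  have := h.add (KP_zero_of_isInv h')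
  simpa using this

theorem KP.eis {P : OnePoint ℚ → ZMod m} {x : JZero L} (h : KP L m P x) (l : Nat.Primes)
    (hlL : ¬ (l : ℕ) ∣ L) : KP L m (DD l P) (eis L l x) := by
  have h1 := isKummer_eis l hlL _ h.2
  obtain ⟨hu', e1⟩ := TH_sub_bd_gen l.2 hlL (⟨P, mem_Symb_iff_soft.2 h.1⟩ : Symb (Gamma0 L) (ZMod m))
  refine ⟨mem_Symb_iff_soft.1 hu', ?_⟩
  rw [hmP, e1] at h1
  exact h1

theorem KP.hecke {P : OnePoint ℚ → ZMod m} {x : JZero L} (h : KP L m P x) (r : Nat.Primes)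
    (hrL : ¬ (r : ℕ) ∣ L) : KP L m (TT r P) (heckeOperatorBar L r x) := by
  have : NeZero (r : ℕ) := ⟨r.2.ne_zero⟩
  have h1 : IsKummer L m (chiOf (TH (ZMod m) L r (hmP P h.1) : Additive (Gamma0 L) →+ ZMod m))
      (heckeOperatorBar L r x) := h.2.hecke r hrL (isTransfer_TH r.2 hrL _).chiOf
  have hop := isOp_T (A := ZMod m) r.2 hrL
  refine ⟨h.1.TT r.2 hrL, ?_⟩
  rw [hmP, TH, opH_bd hop] at h1
  have e : (⟨opT (ZMod m) r P, hop.symb P (mem_Symb_iff_soft.2 h.1)⟩ : Symb (Gamma0 L) (ZMod m))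
      = ⟨TT r P, mem_Symb_iff_soft.2 (h.1.TT r.2 hrL)⟩ := Subtype.ext (opT_eq_TT r P)
  rw [e] at h1
  exact h1

theorem isPot_mono {A : Type*} [AddCommGroup A] {Γ Γ' : Subgroup SL(2, ℤ)} (hle : Γ ≤ Γ')
    {P : OnePoint ℚ → A} (h : IsPot Γ' P) : IsPot Γ P := fun γ hγ => h γ (hle hγ)

theorem isInv_mono {A : Type*} [AddCommGroup A] {Γ Γ' : Subgroup SL(2, ℤ)} (hle : Γ ≤ Γ')
    {P : OnePoint ℚ → A} (h : IsInv Γ' P) : IsInv Γ P := fun γ hγ => h γ (hle hγ)

theorem KP.pullA {P : OnePoint ℚ → ZMod m} {x : JZero L} (h : KP L m P x) (q : ℕ) [NeZero q] :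
    KP (L * q) m P (pullA L q x) :=
  ⟨isPot_mono (S41.Gamma0_mul_le L q) h.1, isKummer_pullA_bd q _ h.2 _⟩

theorem car_exists_conj_dgQ {K q : ℕ} (hq : q ≠ 0) {γ : SL(2, ℤ)} (hγ : γ ∈ Gamma0 (K * q)) :
    ∃ γ' ∈ Gamma0 K, dgQ q * mapGL ℚ γ = mapGL ℚ γ' * dgQ q := by
  obtain ⟨c₀, hc₀⟩ := mem_Gamma0_iff_dvd.1 hγ
  push_cast at hc₀
  have hdet := det_SL2 γ
  let γ' : SL(2, ℤ) := ⟨!![γ 0 0, (q : ℤ) * γ 0 1; (K : ℤ) * c₀, γ 1 1], by
    rw [Matrix.det_fin_two_of]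
    rw [hc₀] at hdet
    linear_combination hdet⟩
  refine ⟨γ', mem_Gamma0_iff_dvd.2 ⟨c₀, rfl⟩, ?_⟩
  refine mul_mapGL_eq_of_int (c := 1) (W := !![(q : ℤ), 0; 0, 1]) ?_ ?_
  · rw [val_dgQ hq, one_smul]
    ext i j
    fin_cases i <;> fin_cases j <;> simp
  · rw [SL2_eta γ, hc₀]
    show _ = !![_, _; _, _] * _
    rw [Matrix.mul_fin_two, Matrix.mul_fin_two]
    refine mat2_ext ?_ ?_ ?_ ?_ <;> ring

theorem isPot_comp_dgQ {A : Type*} [AddCommGroup A] {K q : ℕ} (hq : q ≠ 0) {P : OnePoint ℚ → A}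
    (h : IsPot (Gamma0 K) P) : IsPot (Gamma0 (K * q)) (fun s => P (dgQ q • s)) := by
  intro γ hγ
  obtain ⟨γ', hγ', e⟩ := car_exists_conj_dgQ hq hγ
  obtain ⟨c, hc⟩ := h γ' hγ'
  refine ⟨c, fun s => ?_⟩
  show P (dgQ q • mapGL ℚ γ • s) = P (dgQ q • s) + c
  rw [← mul_smul, e, mul_smul, hc]

theorem KP.pullB {P : OnePoint ℚ → ZMod m} {x : JZero L} (h : KP L m P x) (q : ℕ) [NeZero q] :
    KP (L * q) m (fun s => P (dgQ q • s)) (pullB L q x) :=
  ⟨isPot_comp_dgQ (NeZero.ne q) h.1, isKummer_pullB_bd q _ h.2 _⟩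

/-- a potential whose character is good has a Kummer class -/
theorem exists_KP_of_good {P : OnePoint ℚ → ZMod m} (h : IsPot (Gamma0 L) P)
    (hg : (hmP P h : Additive (Gamma0 L) →+ ZMod m) ∈ GoodHom L m) : ∃ x : JZero L, KP L m P x := by
  obtain ⟨κ, -, hk, -, -⟩ := exists_kummerHom_surj L m
  exact ⟨κ ⟨_, hg⟩, h, hk ⟨_, hg⟩⟩

end

end Fermat.Agent.ML.At2
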