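import Fermat.Agent.ML.At2.Car.KP

/-!
# ML / AT-2 / (E2) [CAR3], [CAR2], [INV4] : descent of invariant torsion classes (point level)

`y ∈ J₀(N q²)[m]` whose potential `P` is fixed (modulo invariant functions) by `δ⁻¹ Γ₀(K) δ`
(`K = N` or `K = N q`, `δ = diag(q,1)`).  Then `T_r (T_l - l - 1) y` comes from `J₀(K)[m]` by the
degeneracy map `τ ↦ q τ`.  The two analytic inputs are contracts:
`SoftStmt` (helper89's `car_soft`) and `EllStmt` (helper59's `TH_mem_goodHom`).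
-/

set_option autoImplicit false
set_option linter.unusedSectionVars false

open AlgebraicCurve ModularCurve CongruenceSubgroup OnePoint ModularForm
open scoped MatrixGroups
open Matrix.SpecialLinearGroup (mapGL)

namespace Fermat.Agent.ML.At2

open Fermat.Agent.GAL Fermat.Agent.GAL.PC Fermat.Agent.S41 Fermat.Agent.S41.Soft Fermat.Agent.RIB
  Fermat.Agent.ML

noncomputable section

/-- contract: `car_soft` for the coefficients `ℤ/m` and the group `Γ₀(K)` -/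
def SoftStmt (N q K m l : ℕ) : Prop :=
  ∀ P : OnePoint ℚ → ZMod m, IsPot (Gamma0 (N * q * q)) P →
    (∀ gam ∈ Gamma0 K, IsInv (Gamma0 (N * q * q))
      (fun s => P ((dgQ q)⁻¹ • mapGL ℚ gam • dgQ q • s) - P s)) →
    IsPot (Gamma0 K) (fun s => DD l P ((dgQ q)⁻¹ • s))

/-- contract: `T_r` kills the elliptic defect -/
def EllStmt (K m r : ℕ) : Prop :=
  ∀ φ : HH (ZMod m) K, (TH (ZMod m) K r φ : Additive (Gamma0 K) →+ ZMod m) ∈ GoodHom K m

variable {m : ℕ} [NeZero m]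

theorem hmP_TT {K : ℕ} {r : ℕ} (hr : r.Prime) (hrK : ¬ r ∣ K) {F : OnePoint ℚ → ZMod m}
    (hF : IsPot (Gamma0 K) F) :
    hmP (TT r F) (hF.TT hr hrK) = TH (ZMod m) K r (hmP F hF) := by
  have hop := isOp_T (A := ZMod m) hr hrK
  rw [hmP, hmP, TH, opH_bd hop]
  congr 1
  exact Subtype.ext (opT_eq_TT r F).symm

/-- the descent at the level of potentials -/
theorem exists_KP_descent {N q K l : ℕ} [NeZero K] (hq : q ≠ 0) (r : Nat.Primes)
    (hrK : ¬ (r : ℕ) ∣ K) (hrq : Nat.Coprime q r) (hS : SoftStmt N q K m l) (hE : EllStmt K m r)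
    {P : OnePoint ℚ → ZMod m} (hP : IsPot (Gamma0 (N * q * q)) P)
    (hinv : ∀ gam ∈ Gamma0 K, IsInv (Gamma0 (N * q * q))
      (fun s => P ((dgQ q)⁻¹ • mapGL ℚ gam • dgQ q • s) - P s)) :
    ∃ (x : JZero K) (F : OnePoint ℚ → ZMod m), KP K m F x ∧
      (fun s => F (dgQ q • s)) = TT r (DD l P) := by
  have hF₀ := hS P hP hinv
  have hg : (hmP (TT r _) (hF₀.TT r.2 hrK) : Additive (Gamma0 K) →+ ZMod m) ∈ GoodHom K m := by
    rw [hmP_TT r.2 hrK hF₀]; exact hE _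
  obtain ⟨x, hx⟩ := exists_KP_of_good _ hg
  refine ⟨x, _, hx, ?_⟩
  funext s
  rw [← TT_comp_dgQ r.2.ne_zero hq hrq _ hF₀.hT s]
  simp only [inv_smul_smul]

section Zero

variable {N q : ℕ} [NeZero N] [NeZero q]

/-- **(E2), case `c = 0`** (potential form) -/
theorem car_zero_of_hinv {l r : Nat.Primes} (hlL : ¬ (l : ℕ) ∣ N * q * q)
    (hrL : ¬ (r : ℕ) ∣ N * q * q) (hS : SoftStmt N q N m l) (hE : EllStmt N m r)
    {P : OnePoint ℚ → ZMod m} {y : JZero (N * q * q)} (hy : KP (N * q * q) m P y)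
    (hinv : ∀ gam ∈ Gamma0 N, IsInv (Gamma0 (N * q * q))
      (fun s => P ((dgQ q)⁻¹ • mapGL ℚ gam • dgQ q • s) - P s)) :
    ∃ x : JZero N, m • x = 0 ∧ pullA (N * q) q (pullB N q x)
      = heckeOperatorBar (N * q * q) r (eis (N * q * q) l y) := by
  have hrN : ¬ (r : ℕ) ∣ N := fun h => hrL ((h.mul_right q).mul_right q)
  have hrq : Nat.Coprime q r := by
    rw [Nat.coprime_comm, Nat.Prime.coprime_iff_not_dvd r.2]
    exact fun h => hrL (h.mul_left _)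
  obtain ⟨x, F, hx, hF⟩ := exists_KP_descent (NeZero.ne q) r hrN hrq hS hE hy.isPot hinv
  refine ⟨x, hx.torsion, ?_⟩
  have h1 := (hx.pullB q).pullA q
  rw [hF] at h1
  exact h1.unique ((hy.eis l hlL).hecke r hrL)

/-- **(E2), case `c = 1`** (potential form) -/
theorem car_one_of_hinv {l r : Nat.Primes} (hlL : ¬ (l : ℕ) ∣ N * q * q)
    (hrL : ¬ (r : ℕ) ∣ N * q * q) (hS : SoftStmt N q (N * q) m l) (hE : EllStmt (N * q) m r)
    {P : OnePoint ℚ → ZMod m} {y : JZero (N * q * q)} (hy : KP (N * q * q) m P y)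
    (hinv : ∀ gam ∈ Gamma0 (N * q), IsInv (Gamma0 (N * q * q))
      (fun s => P ((dgQ q)⁻¹ • mapGL ℚ gam • dgQ q • s) - P s)) :
    ∃ x : JZero (N * q), m • x = 0 ∧ pullB (N * q) q x
      = heckeOperatorBar (N * q * q) r (eis (N * q * q) l y) := by
  have hrN : ¬ (r : ℕ) ∣ N * q := fun h => hrL (h.mul_right q)
  have hrq : Nat.Coprime q r := by
    rw [Nat.coprime_comm, Nat.Prime.coprime_iff_not_dvd r.2]
    exact fun h => hrL (h.mul_left _)
  obtain ⟨x, F, hx, hF⟩ := exists_KP_descent (NeZero.ne q) r hrN hrq hS hE hy.isPot hinv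
  refine ⟨x, hx.torsion, ?_⟩
  have h1 := hx.pullB q
  rw [hF] at h1
  exact h1.unique ((hy.eis l hlL).hecke r hrL)

end Zero

/-! ### the kernel of the degeneracy map `τ ↦ q τ` is Eisenstein -/

theorem eis_eq_zero_of_KP_comp {K L q : ℕ} [NeZero K] (hq : q ≠ 0) {l : Nat.Primes}
    (hl1 : (L : ℤ) ∣ ((l : ℕ) : ℤ) - 1) (hlK : ¬ (l : ℕ) ∣ K) (hlq : Nat.Coprime q l)
    {F : OnePoint ℚ → ZMod m} {x : JZero K} (hx : KP K m F x)
    (hinv : IsInv (Gamma0 L) (fun s => F (dgQ q • s))) : eis K l x = 0 := by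
  have h0 : DD l F = fun _ => 0 := by
    funext s
    have h1 := DD_eq_zero_of_isInv l.2 hl1 hinv ((dgQ q)⁻¹ • s)
    rwa [DD_comp_dgQ l.2.ne_zero hq hlq F hx.isPot.hT, smul_inv_smul] at h1
  have h2 := hx.eis l hlK
  rw [h0] at h2
  exact h2.unique (KP_zero_of_isInv fun _ _ _ => rfl)

section Ker

variable {N q : ℕ} [NeZero N] [NeZero q]

theorem car_not_dvd_of_dvd_sub_one {l : Nat.Primes} {L K : ℕ} (hl1 : (L : ℤ) ∣ ((l : ℕ) : ℤ) - 1)
    (hK : K ∣ L) : ¬ (l : ℕ) ∣ K := by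
  intro h
  have h1 : ((l : ℕ) : ℤ) ∣ ((l : ℕ) : ℤ) - 1 :=
    Dvd.dvd.trans (by exact_mod_cast h.trans hK) hl1
  have h2 : ((l : ℕ) : ℤ) ∣ 1 := by
    have := dvd_sub (dvd_refl ((l : ℕ) : ℤ)) h1
    simpa using this
  have h3 : (l : ℕ) ∣ 1 := by exact_mod_cast h2
  exact l.2.one_lt.ne' (Nat.dvd_one.mp h3)

theorem eis_eq_zero_of_pullA_pullB {l : Nat.Primes}
    (hl1 : ((N * q * q : ℕ) : ℤ) ∣ ((l : ℕ) : ℤ) - 1) {x : JZero N} (hx : m • x = 0)
    (h0 : pullA (N * q) q (pullB N q x) = 0) : eis N l x = 0 := by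
  obtain ⟨F, hF⟩ := exists_KP_of_torsion hx
  have h1 := (hF.pullB q).pullA q
  rw [h0] at h1
  refine eis_eq_zero_of_KP_comp (NeZero.ne q) hl1
    (car_not_dvd_of_dvd_sub_one hl1 ⟨q * q, by ring⟩) ?_ hF h1.isInv_of_zero
  rw [Nat.coprime_comm, Nat.Prime.coprime_iff_not_dvd l.2]
  exact car_not_dvd_of_dvd_sub_one hl1 ⟨N * q, by ring⟩

theorem eis_eq_zero_of_pullB {l : Nat.Primes}
    (hl1 : ((N * q : ℕ) : ℤ) ∣ ((l : ℕ) : ℤ) - 1) {x : JZero N} (hx : m • x = 0)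
    (h0 : pullB N q x = 0) : eis N l x = 0 := by
  obtain ⟨F, hF⟩ := exists_KP_of_torsion hx
  have h1 := hF.pullB q
  rw [h0] at h1
  refine eis_eq_zero_of_KP_comp (NeZero.ne q) hl1
    (car_not_dvd_of_dvd_sub_one hl1 ⟨q, rfl⟩) ?_ hF h1.isInv_of_zero
  rw [Nat.coprime_comm, Nat.Prime.coprime_iff_not_dvd l.2]
  exact car_not_dvd_of_dvd_sub_one hl1 ⟨N, by ring⟩

end Ker

/-! ### from operators to the stabiliser -/

/-- the operator `a` on `J₀(L)` acts on Kummer characters by conjugation by `h` -/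
def KumConj (L m : ℕ) [NeZero L] (h : GL (Fin 2) ℚ) (a : JZero L → JZero L) : Prop :=
  ∀ (χ χ' : Gamma0 L →* ℂˣ) (x : JZero L), IsKummer L m χ x →
    (∀ γ γ' : Gamma0 L, castGL h * mapGL ℝ (γ : SL(2, ℤ)) = mapGL ℝ (γ' : SL(2, ℤ)) * castGL h →
      χ' γ = χ γ') → IsKummer L m χ' (a x)

section Conj

variable {L : ℕ} [NeZero L]

theorem KP.conj {h : GL (Fin 2) ℚ} {a : JZero L → JZero L} (ha : KumConj L m h a)
    (hn : Nrm1 (Gamma0 L) h) {P : OnePoint ℚ → ZMod m} {x : JZero L} (hx : KP L m P x) :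
    KP L m (fun s => P (h • s)) (a x) := by
  refine ⟨isPot_comp_nrm hx.1 hn, ha _ _ x hx.2 fun γ γ' hγ => ?_⟩
  have hQ : h * mapGL ℚ (γ : SL(2, ℤ)) = mapGL ℚ (γ' : SL(2, ℤ)) * h := by
    apply castGL_injective
    rw [map_mul, map_mul, castGL_mapGL, castGL_mapGL, hγ]
  ext
  rw [coe_chiOf, coe_chiOf, hmP, hmP, bd_apply _ γ ∞, bd_apply _ γ' (h • ∞)]
  show ZMod.stdAddChar (P (h • mapGL ℚ (γ : SL(2, ℤ)) • ∞) - P (h • ∞)) = _
  rw [← mul_smul, hQ, mul_smul]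

theorem mem_stab_of_fixed {h : GL (Fin 2) ℚ} {a : JZero L → JZero L} (ha : KumConj L m h a)
    (hn : h ∈ nrmGrp (Gamma0 L)) {P : OnePoint ℚ → ZMod m} {y : JZero L} (hy : KP L m P y)
    (hfix : a y = y) : h ∈ stab (Gamma0 L) P := by
  have h1 := hy.conj ha hn.1
  rw [hfix] at h1
  exact ⟨hn, h1.isInv_sub hy⟩

end Conj

end

end Fermat.Agent.ML.At2
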